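import Fermat.Agent.LT.Tw.Class
import Mathlib

set_option autoImplicit false
set_option linter.unusedSectionVars false
set_option linter.unusedVariables false

/-!
# The archimedean places of a cyclic cubic extension
-/

open NumberField Matrix

namespace Fermat.Agent.LT.T3

open Tw

variable {k E : Type*} [Field k] [NumberField k] [Field E] [NumberField E] [Algebra k E]

theorem ringHom_ext_prim {f g : E →+* ℂ} (h : f.comp (algebraMap k E) = g.comp (algebraMap k E))
    {α : E} (hα : IntermediateField.adjoin k {α} = ⊤) (h2 : f α = g α) : f = g := by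
  ext x
  have hx : x ∈ IntermediateField.adjoin k {α} := by rw [hα]; trivial
  induction hx using IntermediateField.adjoin_induction with
  | mem x hx => rw [Set.mem_singleton_iff] at hx; rw [hx, h2]
  | algebraMap x => exact RingHom.congr_fun h x
  | add x y _ _ h1 h2 => rw [map_add, map_add, h1, h2]
  | inv x _ h1 => rw [map_inv₀, map_inv₀, h1]
  | mul x y _ _ h1 h2 => rw [map_mul, map_mul, h1, h2]

variable {σ : E ≃ₐ[k] E}

/-- the embeddings extending a given one -/
theorem emb_eq (h : Cyc3 σ) {φ ψ : E →+* ℂ}
    (hφ : φ.comp (algebraMap k E) = ψ.comp (algebraMap k E)) :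
    ψ = φ ∨ ψ = φ.comp (σ : E →+* E) ∨ ψ = (φ.comp (σ : E →+* E)).comp (σ : E →+* E) := by
  obtain ⟨α, hα⟩ := Field.exists_primitive_element k E
  obtain ⟨c1, h1⟩ := h.fix (α + σ α + σ (σ α)) (by
    rw [map_add, map_add, h.cube]; ring)
  obtain ⟨c2, h2⟩ := h.fix (α * σ α + σ α * σ (σ α) + σ (σ α) * α) (by
    rw [map_add, map_add, map_mul, map_mul, map_mul, h.cube]; ring)
  obtain ⟨c3, h3⟩ := h.fix (α * σ α * σ (σ α)) (by
    rw [map_mul, map_mul, h.cube]; ring)
  have e : ∀ c : k, φ (algebraMap k E c) = ψ (algebraMap k E c) := fun c =>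
    RingHom.congr_fun hφ c
  have e1 := e c1
  have e2 := e c2
  have e3 := e c3
  rw [h1] at e1
  rw [h2] at e2
  rw [h3] at e3
  simp only [map_add, map_mul] at e1 e2 e3
  have key : (ψ α - φ α) * (ψ α - φ (σ α)) * (ψ α - φ (σ (σ α))) = 0 := by
    linear_combination (-(ψ α) ^ 2) * e1 + (ψ α) * e2 - e3
  have hs : (φ.comp (σ : E →+* E)).comp (algebraMap k E) = ψ.comp (algebraMap k E) := by
    rw [← hφ]
    ext x
    simp
  have hs2 : ((φ.comp (σ : E →+* E)).comp (σ : E →+* E)).comp (algebraMap k E) =
      ψ.comp (algebraMap k E) := by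
    rw [← hφ]
    ext x
    simp
  rcases mul_eq_zero.1 key with key | key
  · rcases mul_eq_zero.1 key with key | key
    · exact Or.inl (ringHom_ext_prim hφ.symm hα (by linear_combination key))
    · refine Or.inr (Or.inl (ringHom_ext_prim hs.symm hα ?_))
      change ψ α = φ (σ α)
      linear_combination key
  · refine Or.inr (Or.inr (ringHom_ext_prim hs2.symm hα ?_))
    change ψ α = φ (σ (σ α))
    linear_combination key

/-- the index set of the places of `E` -/
abbrev J3 (k : Type*) [Field k] := InfinitePlace k ⊕ (InfinitePlace k ⊕ InfinitePlace k)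

variable (σ) in
/-- the embeddings -/
noncomputable def em (φ : InfinitePlace k → (E →+* ℂ)) : J3 k → (E →+* ℂ)
  | .inl v => φ v
  | .inr (.inl v) => (φ v).comp (σ : E →+* E)
  | .inr (.inr v) => ((φ v).comp (σ : E →+* E)).comp (σ : E →+* E)

/-- the place of `k` below -/
def bl : J3 k → InfinitePlace k
  | .inl v => v
  | .inr (.inl v) => v
  | .inr (.inr v) => v

variable {φ : InfinitePlace k → (E →+* ℂ)}

theorem em_comp (hφ : ∀ v, (φ v).comp (algebraMap k E) = v.embedding) (i : J3 k) :
    (em σ φ i).comp (algebraMap k E) = (bl i).embedding := by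
  rcases i with v | v | v
  · exact hφ v
  · rw [bl, ← hφ]
    ext x
    simp [em]
  · rw [bl, ← hφ]
    ext x
    simp [em]

theorem em_injective (h : Cyc3 σ) [IsTotallyComplex k]
    (hφ : ∀ v, (φ v).comp (algebraMap k E) = v.embedding) :
    Function.Injective (fun i : J3 k => InfinitePlace.mk (em σ φ i)) := by
  obtain ⟨x, hx⟩ := h.ne
  have hx2 : σ (σ x) ≠ x := by
    intro h1
    have := congrArg σ h1
    rw [h.cube] at this
    exact hx this.symm
  have hx3 : σ (σ x) ≠ σ x := fun h1 => hx (σ.injective h1)
  have hconj : ∀ i : J3 k, (ComplexEmbedding.conjugate (em σ φ i)).comp (algebraMap k E) =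
      ComplexEmbedding.conjugate (bl i).embedding := by
    intro i
    rw [← em_comp hφ i]
    rfl
  have hmk : ∀ i i' : J3 k, em σ φ i = em σ φ i' → i = i' := by
    intro i i' e
    have h1 : (bl i).embedding = (bl i').embedding := by
      rw [← em_comp (σ := σ) hφ i, ← em_comp (σ := σ) hφ i', e]
    have h2 : bl i = bl i' := by
      rw [← InfinitePlace.mk_embedding (bl i), h1, InfinitePlace.mk_embedding]
    have h3 := RingHom.congr_fun e x
    rcases i with v | v | v <;> rcases i' with v' | v' | v' <;> simp only [bl] at h2 <;> subst h2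
    · rfl
    · exact absurd ((φ v).injective h3).symm hx
    · exact absurd ((φ v).injective h3).symm hx2
    · exact absurd ((φ v).injective h3) hx
    · rfl
    · exact absurd ((φ v).injective h3).symm hx3
    · exact absurd ((φ v).injective h3) hx2
    · exact absurd ((φ v).injective h3) hx3
    · rfl
  intro i i' e
  rcases InfinitePlace.mk_eq_iff.mp e with e | e
  · exact hmk i i' e
  · exfalso
    have h1 : ComplexEmbedding.conjugate (bl i).embedding = (bl i').embedding := by
      rw [← hconj i, ← em_comp (σ := σ) hφ i', e]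
    have h2 : bl i = bl i' := by
      rw [← InfinitePlace.mk_embedding (bl i), ← InfinitePlace.mk_embedding (bl i'), ← h1,
        InfinitePlace.mk_conjugate_eq]
    rw [← h2] at h1
    exact (InfinitePlace.isComplex_iff.mp (IsTotallyComplex.isComplex (bl i))) h1

theorem em_surjective (h : Cyc3 σ)
    (hφ : ∀ v, (φ v).comp (algebraMap k E) = v.embedding) :
    Function.Surjective (fun i : J3 k => InfinitePlace.mk (em σ φ i)) := by
  intro w
  have key : ∀ ψ : E →+* ℂ, ∀ v : InfinitePlace k, ψ.comp (algebraMap k E) = v.embedding →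
      InfinitePlace.mk ψ = w → ∃ i : J3 k, InfinitePlace.mk (em σ φ i) = w := by
    intro ψ v hv hw
    rcases emb_eq h (φ := φ v) (ψ := ψ) (by rw [hφ, hv]) with e | e | e
    · exact ⟨.inl v, by rw [← hw, e]; rfl⟩
    · exact ⟨.inr (.inl v), by rw [← hw, e]; rfl⟩
    · exact ⟨.inr (.inr v), by rw [← hw, e]; rfl⟩
  set v := InfinitePlace.mk (w.embedding.comp (algebraMap k E)) with hv
  rcases InfinitePlace.mk_eq_iff.mp (InfinitePlace.mk_embedding v) with e | e
  · exact key w.embedding v e.symm (InfinitePlace.mk_embedding w)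
  · refine key (ComplexEmbedding.conjugate w.embedding) v ?_ (by
      rw [InfinitePlace.mk_conjugate_eq, InfinitePlace.mk_embedding])
    have e' : (ComplexEmbedding.conjugate w.embedding).comp (algebraMap k E) =
        ComplexEmbedding.conjugate (w.embedding.comp (algebraMap k E)) := rfl
    rw [e', ← e]
    exact star_star _

theorem em_bijective (h : Cyc3 σ) [IsTotallyComplex k]
    (hφ : ∀ v, (φ v).comp (algebraMap k E) = v.embedding) :
    Function.Bijective (fun i : J3 k => InfinitePlace.mk (em σ φ i)) :=
  ⟨em_injective h hφ, em_surjective h hφ⟩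

variable (k E) in
theorem exists_ext : ∃ φ : InfinitePlace k → (E →+* ℂ),
    ∀ v, (φ v).comp (algebraMap k E) = v.embedding :=
  ⟨fun v => ComplexEmbedding.lift E v.embedding, fun v => ComplexEmbedding.lift_comp_algebraMap _ _⟩

end Fermat.Agent.LT.T3
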