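import Fermat.Agent.LT.T3.Meas
import Fermat.Agent.LT.Sp.Theta
import Fermat.Agent.LT.H3.Ker
import Fermat.Agent.LT.T3.Places

set_option autoImplicit false
set_option linter.unusedSectionVars false
set_option linter.unusedVariables false

/-!
# The archimedean part of the comparison
-/

open scoped ENNReal NNReal MatrixGroups ComplexConjugate
open MeasureTheory NumberField Matrix

namespace Fermat.Agent.LT

section Cj

/-- point pair invariants are invariant under complex conjugation -/
theorem IKer.k_cj (κ : IKer) (p p' : H3) : κ.k (H3.cj p) (H3.cj p') = κ.k p p' := by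
  have key : ∀ q : H3, κ.k H3.j (H3.cj q) = κ.k H3.j q := by
    intro q
    by_cases hz : q.z = 0
    · have : H3.cj q = q := by
        apply H3.ext
        · rw [H3.cj_z, hz, map_zero]
        · rfl
      rw [this]
    · have hu : (conj q.z / q.z) * 1 ≠ 0 := by
        rw [mul_one]
        exact div_ne_zero (by simpa using hz) hz
      set g := H3.upTri (conj q.z / q.z) 0 1 hu with hg
      have e00 : g 0 0 = conj q.z / q.z := rfl
      have e01 : g 0 1 = 0 := rfl
      have e10 : g 1 0 = 0 := rfl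
      have e11 : g 1 1 = 1 := rfl
      have hn : ‖conj q.z / q.z‖ = 1 := by
        rw [norm_div, RCLike.norm_conj]
        exact div_self (by simpa using hz)
      have h1 : g • H3.j = H3.j := by
        apply H3.ext
        · rw [H3.smul_z_of_upper e10, e00, e01, e11]
          simp [H3.j]
        · rw [H3.smul_y_of_upper e10, e00, e11, div_one, hn]
          simp
      have h2 : g • q = H3.cj q := by
        apply H3.ext
        · rw [H3.smul_z_of_upper e10, e00, e01, e11, H3.cj_z]
          field_simp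
          simp
        · rw [H3.smul_y_of_upper e10, e00, e11, div_one, hn, H3.cj_y]
          simp
      rw [← κ.inv g H3.j q, h1, h2]
  have hj : H3.cj H3.j = H3.j := by
    apply H3.ext
    · simp [H3.j]
    · rfl
  obtain ⟨U, q, rfl, rfl⟩ : ∃ (U : GL (Fin 2) ℂ) (q : H3), U • H3.j = p ∧ U • q = p' :=
    ⟨H3.up p, (H3.up p)⁻¹ • p', H3.up_smul_j p, smul_inv_smul _ _⟩
  rw [H3.cj_smul, H3.cj_smul, κ.inv, κ.inv, hj, key]

end Cj

namespace T3

section Push

variable {A A' B : Type*} [MeasurableSpace A] [MeasurableSpace A'] [MeasurableSpace B]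
  {ν : Measure A} {ν' : Measure A'} {β : Measure B} [SFinite ν'] [SFinite β]

theorem pushData_of_prod {Ψ : A → A' × B} (hΨ : MeasurePreserving Ψ ν (ν'.prod β))
    {G : A' × B → ℂ} (mG : Measurable G) {H' : A' → ℂ} (mH' : Measurable H')
    (hG : ∀ x, ∫ b, G (x, b) ∂β = H' x) :
    PushData ν ν' (fun a => (Ψ a).1) (fun a => G (Ψ a)) H' where
  qmp := Measure.quasiMeasurePreserving_fst.comp hΨ.quasiMeasurePreserving
  mH := mG.comp hΨ.measurable
  mH' := mH'
  lint f hf := by
    have m1 : Measurable fun y : A' × B => (f y.1 : ℝ≥0∞) * ‖G y‖ₑ :=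
      (hf.comp measurable_fst).coe_nnreal_ennreal.mul mG.enorm
    have h1 : ∫⁻ a, (f (Ψ a).1 : ℝ≥0∞) * ‖G (Ψ a)‖ₑ ∂ν =
        ∫⁻ x, ∫⁻ b, (f x : ℝ≥0∞) * ‖G (x, b)‖ₑ ∂β ∂ν' := by
      rw [hΨ.lintegral_comp m1, lintegral_prod _ m1.aemeasurable]
    rw [h1]
    refine lintegral_mono fun x => ?_
    have m2 : Measurable fun b => ‖G (x, b)‖ₑ := (mG.comp measurable_prodMk_left).enorm
    rw [← hG x, lintegral_const_mul _ m2]
    gcongr
    exact enorm_integral_le_lintegral_enorm _
  int f hf hfin := by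
    have m1 : Measurable fun y : A' × B => (f y.1 : ℝ≥0∞) * ‖G y‖ₑ :=
      (hf.comp measurable_fst).coe_nnreal_ennreal.mul mG.enorm
    have m3 : Measurable fun y : A' × B => f y.1 • G y := (hf.comp measurable_fst).smul mG
    have i1 : Integrable (fun y : A' × B => f y.1 • G y) (ν'.prod β) := by
      refine ⟨m3.aestronglyMeasurable, ?_⟩
      rw [HasFiniteIntegral]
      simp_rw [FA.enorm_nnreal_smul]
      rw [← hΨ.lintegral_comp m1]
      exact hfin.lt_top
    have h1 : ∫ a, f (Ψ a).1 • G (Ψ a) ∂ν = ∫ y, f y.1 • G y ∂(ν'.prod β) := by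
      rw [← hΨ.map_eq, integral_map hΨ.measurable.aemeasurable m3.aestronglyMeasurable]
    rw [h1, integral_prod _ i1]
    refine integral_congr_ae (Filter.Eventually.of_forall fun x => ?_)
    simp only
    rw [← hG x]
    simp only [NNReal.smul_def]
    exact integral_smul (f x : ℝ) fun b => G (x, b)

end Push

section Triple

open IKer

/-- the triple integral -/
theorem triple (κ₀ κ₁ κ₂ : IKer) (t₀ t₁ t₂ : GL (Fin 2) ℂ) (x : H3) :
    ∫ b : H3 × H3, κ₀.k x (t₀ • b.1) * κ₁.k b.1 (t₁ • b.2) * κ₂.k b.2 (t₂ • x) =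
      (comp κ₀ (comp κ₁ κ₂)).k x ((t₀ * t₁ * t₂) • x) := by
  set z := (t₀ * t₁ * t₂) • x with hz
  have hm : MeasurePreserving (fun b : H3 × H3 => (t₀ • b.1, (t₀ * t₁) • b.2)) :=
    (H3.measurePreserving_smul_H3 t₀).prod (H3.measurePreserving_smul_H3 (t₀ * t₁))
  have cont2 : Continuous fun p' : H3 => κ₂.k p' z := by
    have h : Continuous fun p' : H3 => ((p', z) : H3 × H3) := continuous_id.prodMk continuous_const
    exact κ₂.cont.comp h
  have hint := integrable_prod κ₀ κ₁ (f := fun p' => κ₂.k p' z) cont2.locallyIntegrable x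
  have e1 : ∀ b : H3 × H3, κ₀.k x (t₀ • b.1) * κ₁.k b.1 (t₁ • b.2) * κ₂.k b.2 (t₂ • x) =
      (κ₀.k x (t₀ • b.1) * κ₁.k (t₀ • b.1) ((t₀ * t₁) • b.2)) • κ₂.k ((t₀ * t₁) • b.2) z := by
    intro b
    rw [mul_smul t₀ t₁, κ₁.inv, hz, mul_smul (t₀ * t₁) t₂, ← mul_smul t₀ t₁, κ₂.inv, smul_eq_mul]
  simp_rw [e1]
  have e2 := integral_map (μ := (volume : Measure (H3 × H3))) hm.measurable.aemeasurable
    (f := fun b : H3 × H3 => (κ₀.k x b.1 * κ₁.k b.1 b.2) • κ₂.k b.2 z) (by
      rw [hm.map_eq]; exact hint.1)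
  rw [hm.map_eq] at e2
  rw [← e2]
  change ∫ b : H3 × H3, _ ∂((volume : Measure H3).prod volume) = _
  rw [integral_prod _ hint, comp_k]
  refine integral_congr_ae (Filter.Eventually.of_forall fun b => ?_)
  simp only [smul_eq_mul]
  rw [comp_k, ← integral_const_mul]
  refine integral_congr_ae (Filter.Eventually.of_forall fun b' => ?_)
  simp only []
  ring

end Triple

section Coord

open Sp Tw IKer

variable {k E : Type*} [Field k] [NumberField k] [Field E] [NumberField E] [Algebra k E]

theorem measurePreserving_pt {J : Type*} [Fintype J] (em : J → (E →+* ℂ))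
    (hem : Function.Bijective fun i => InfinitePlace.mk (em i)) :
    MeasurePreserving (fun (y : HF E) (i : J) => pt y (em i)) volume
      (volume : Measure (J → H3)) := by
  classical
  have h1 : MeasurePreserving (fun x : J → H3 => fun i =>
      (if em i = (InfinitePlace.mk (em i)).embedding then id else H3.cj) (x i)) := by
    refine volume_preserving_pi fun i => ?_
    split_ifs
    · exact MeasurePreserving.id _
    · exact H3.measurePreserving_cj
  have h2 : MeasurePreserving (fun x : InfinitePlace E → H3 => fun i =>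
      x (InfinitePlace.mk (em i))) := by
    have h := volume_measurePreserving_piCongrLeft (fun _ : J => H3)
      (Equiv.ofBijective _ hem).symm
    have e : (fun x : InfinitePlace E → H3 => fun i => x (InfinitePlace.mk (em i))) =
        MeasurableEquiv.piCongrLeft (fun _ : J => H3) (Equiv.ofBijective _ hem).symm := by
      funext x i
      have h3 := Equiv.piCongrLeft_apply_apply (fun _ : J => H3)
        (Equiv.ofBijective _ hem).symm x (Equiv.ofBijective _ hem i)
      rw [Equiv.symm_apply_apply] at h3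
      exact h3.symm
    rw [e]
    exact h
  have h3 := h1.comp h2
  have e : (fun (y : HF E) (i : J) => pt y (em i)) = ((fun x : J → H3 => fun i =>
      (if em i = (InfinitePlace.mk (em i)).embedding then id else H3.cj) (x i)) ∘
      (fun x : InfinitePlace E → H3 => fun i => x (InfinitePlace.mk (em i)))) := by
    funext x i
    change pt x (em i) = (if em i = (InfinitePlace.mk (em i)).embedding then id else H3.cj)
      (x (InfinitePlace.mk (em i)))
    rw [pt]
    split_ifs <;> rfl
  rw [e]
  exact h3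

theorem measurePreserving_split {I : Type*} [Fintype I] :
    MeasurePreserving (fun (x : I ⊕ (I ⊕ I) → H3) => ((fun v => x (.inl v) : I → H3),
      (fun v => (x (.inr (.inl v)), x (.inr (.inr v))) : I → H3 × H3)))
      (volume : Measure (I ⊕ (I ⊕ I) → H3))
      ((volume : Measure (I → H3)).prod (volume : Measure (I → H3 × H3))) := by
  have h1 := volume_measurePreserving_sumPiEquivProdPi (fun _ : I ⊕ (I ⊕ I) => H3)
  have h2 := volume_measurePreserving_sumPiEquivProdPi (fun _ : I ⊕ I => H3)
  have h3 := (volume_measurePreserving_arrowProdEquivProdArrow H3 H3 I).symm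
  exact ((MeasurePreserving.id (volume : Measure (I → H3))).prod (h3.comp h2)).comp h1

variable {σ : E ≃ₐ[k] E} {φ : InfinitePlace k → (E →+* ℂ)}

/-- the projection `∏ H³ → ∏ H³` -/
noncomputable def arPi (φ : InfinitePlace k → (E →+* ℂ)) (y : HF E) : HF k := fun v => pt y (φ v)

variable (σ) in
/-- the other coordinates -/
noncomputable def arB (φ : InfinitePlace k → (E →+* ℂ)) (y : HF E) :
    InfinitePlace k → H3 × H3 := fun v =>
  (pt y ((φ v).comp (σ : E →+* E)), pt y (((φ v).comp (σ : E →+* E)).comp (σ : E →+* E)))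

theorem arPi_smul (hφ : ∀ v, (φ v).comp (algebraMap k E) = v.embedding) (g : GL (Fin 2) k)
    (y : HF E) : arPi φ (bc (E := E) g • y) = g • arPi φ y := by
  funext v
  rw [smul_HF_apply]
  change pt (bc (E := E) g • y) (φ v) = embGL v g • pt y (φ v)
  rw [pt_smul]
  congr 1
  ext i j
  rw [embGL_apply, ← hφ v]
  rfl

theorem measurePreserving_arPsi (h : Cyc3 σ) [IsTotallyComplex k]
    (hφ : ∀ v, (φ v).comp (algebraMap k E) = v.embedding) :
    MeasurePreserving (fun y : HF E => (arPi φ y, arB σ φ y)) volume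
      ((volume : Measure (HF k)).prod (volume : Measure (InfinitePlace k → H3 × H3))) :=
  measurePreserving_split.comp (measurePreserving_pt (em σ φ) (em_bijective h hφ))

/-- kernels at a place in terms of embeddings -/
theorem k_pt (κ : IKer) (y y' : HF E) (ψ : E →+* ℂ) :
    κ.k (pt y ψ) (pt y' ψ) = κ.k (y (InfinitePlace.mk ψ)) (y' (InfinitePlace.mk ψ)) := by
  rw [pt, pt]
  split_ifs
  · rfl
  · exact κ.k_cj _ _

/-- the kernel in coordinates -/
noncomputable def arG (σ : E ≃ₐ[k] E) (φ : InfinitePlace k → (E →+* ℂ))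
    (κE : InfinitePlace E → IKer) (t : GL (Fin 2) E)
    (z : HF k × (InfinitePlace k → H3 × H3)) : ℝ :=
  ∏ v, ((κE (InfinitePlace.mk (φ v))).k (z.1 v) (GeneralLinearGroup.map (φ v) t • (z.2 v).1) *
    (κE (InfinitePlace.mk ((φ v).comp (σ : E →+* E)))).k (z.2 v).1
      (GeneralLinearGroup.map ((φ v).comp (σ : E →+* E)) t • (z.2 v).2) *
    (κE (InfinitePlace.mk (((φ v).comp (σ : E →+* E)).comp (σ : E →+* E)))).k (z.2 v).2
      (GeneralLinearGroup.map (((φ v).comp (σ : E →+* E)).comp (σ : E →+* E)) t • z.1 v))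

theorem measurable_arG (κE : InfinitePlace E → IKer) (t : GL (Fin 2) E) :
    Measurable (arG σ φ κE t) := by
  have mk : ∀ κ : IKer, Measurable fun q : H3 × H3 => κ.k q.1 q.2 := fun κ => κ.cont.measurable
  have m1 : ∀ v, Measurable fun z : HF k × (InfinitePlace k → H3 × H3) => z.1 v := fun v =>
    (measurable_pi_apply (X := fun _ : InfinitePlace k => H3) v).comp measurable_fst
  have m2 : ∀ v, Measurable fun z : HF k × (InfinitePlace k → H3 × H3) => z.2 v := fun v =>
    (measurable_pi_apply v).comp measurable_snd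
  have m3 : ∀ v, Measurable fun z : HF k × (InfinitePlace k → H3 × H3) => (z.2 v).1 := fun v =>
    measurable_fst.comp (m2 v)
  have m4 : ∀ v, Measurable fun z : HF k × (InfinitePlace k → H3 × H3) => (z.2 v).2 := fun v =>
    measurable_snd.comp (m2 v)
  have hs : ∀ g : GL (Fin 2) ℂ, Measurable fun p : H3 => g • p := H3.measurable_smul_H3
  unfold arG
  refine Finset.measurable_prod _ fun v _ => ?_
  exact (((mk _).comp ((m1 v).prodMk ((hs _).comp (m3 v)))).mul
    ((mk _).comp ((m3 v).prodMk ((hs _).comp (m4 v))))).mul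
    ((mk _).comp ((m4 v).prodMk ((hs _).comp (m1 v))))

theorem prod_eq_arG (h : Cyc3 σ) [IsTotallyComplex k] [IsTotallyComplex E]
    (hφ : ∀ v, (φ v).comp (algebraMap k E) = v.embedding) (κE : InfinitePlace E → IKer)
    (t : GL (Fin 2) E) (y : HF E) :
    ∏ w, (κE w).k (y w) ((t • thetaHF (σ : E ≃+* E) y) w) =
      arG σ φ κE t (arPi φ y, arB σ φ y) := by
  have key : ∀ ψ : E →+* ℂ, (κE (InfinitePlace.mk ψ)).k (y (InfinitePlace.mk ψ))
      ((t • thetaHF (σ : E ≃+* E) y) (InfinitePlace.mk ψ)) =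
      (κE (InfinitePlace.mk ψ)).k (pt y ψ)
        (GeneralLinearGroup.map ψ t • pt y (ψ.comp (σ : E →+* E))) := by
    intro ψ
    rw [← k_pt, pt_smul, pt_thetaHF]
    rfl
  have hc : ∀ v, (((φ v).comp (σ : E →+* E)).comp (σ : E →+* E)).comp (σ : E →+* E) = φ v := by
    intro v
    ext x
    change φ v (σ (σ (σ x))) = _
    rw [h.cube]
  rw [← (em_bijective h hφ).prod_comp (fun w => (κE w).k (y w)
    ((t • thetaHF (σ : E ≃+* E) y) w))]
  simp_rw [key]
  rw [Fintype.prod_sum_type, Fintype.prod_sum_type, ← Finset.prod_mul_distrib,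
    ← Finset.prod_mul_distrib, arG]
  refine Finset.prod_congr rfl fun v _ => ?_
  simp only [em]
  rw [hc v, mul_assoc]
  rfl

theorem map_mul3 (t : GL (Fin 2) E) {γ : GL (Fin 2) k} (ht : nm σ t = bc γ)
    (hφ : ∀ v, (φ v).comp (algebraMap k E) = v.embedding) (v : InfinitePlace k) :
    GeneralLinearGroup.map (φ v) t * GeneralLinearGroup.map ((φ v).comp (σ : E →+* E)) t *
      GeneralLinearGroup.map (((φ v).comp (σ : E →+* E)).comp (σ : E →+* E)) t = embGL v γ := by
  have e1 : GeneralLinearGroup.map (φ v) (nm σ t) = embGL v γ := by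
    rw [ht]
    ext i j
    rw [embGL_apply, ← hφ v]
    rfl
  rw [← e1, nm, map_mul, map_mul]
  rfl

/-- **the archimedean push-forward** -/
theorem arch_push (h : Cyc3 σ) [IsTotallyComplex k] [IsTotallyComplex E]
    (hφ : ∀ v, (φ v).comp (algebraMap k E) = v.embedding) (κE : InfinitePlace E → IKer)
    (κk : InfinitePlace k → IKer)
    (hκ : ∀ v p p', (κk v).k p p' = (comp (κE (InfinitePlace.mk (φ v)))
      (comp (κE (InfinitePlace.mk ((φ v).comp (σ : E →+* E))))
        (κE (InfinitePlace.mk (((φ v).comp (σ : E →+* E)).comp (σ : E →+* E)))))).k p p')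
    {t : GL (Fin 2) E} {γ : GL (Fin 2) k} (ht : nm σ t = bc γ) :
    PushData (volume : Measure (HF E)) (volume : Measure (HF k)) (arPi φ)
      (fun y => ((∏ w, (κE w).k (y w) ((t • thetaHF (σ : E ≃+* E) y) w) : ℝ) : ℂ))
      (fun x => ((∏ v, (κk v).k (x v) ((γ • x) v) : ℝ) : ℂ)) := by
  have mH' : Measurable fun x : HF k => ((∏ v, (κk v).k (x v) ((γ • x) v) : ℝ) : ℂ) := by
    refine Complex.measurable_ofReal.comp (Finset.measurable_prod _ fun v _ => ?_)
    have m1 : Measurable fun x : HF k => x v :=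
      measurable_pi_apply (X := fun _ : InfinitePlace k => H3) v
    exact (κk v).cont.measurable.comp
      (m1.prodMk ((H3.measurable_smul_H3 (embGL v γ)).comp m1))
  have h1 := pushData_of_prod (measurePreserving_arPsi h hφ)
    (G := fun z => ((arG σ φ κE t z : ℝ) : ℂ))
    (Complex.measurable_ofReal.comp (measurable_arG κE t)) mH' ?_
  · have e : (fun y : HF E => ((∏ w, (κE w).k (y w) ((t • thetaHF (σ : E ≃+* E) y) w) : ℝ) : ℂ)) =
        fun y => ((arG σ φ κE t (arPi φ y, arB σ φ y) : ℝ) : ℂ) := by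
      funext y
      rw [prod_eq_arG h hφ]
    rw [e]
    exact h1
  · intro x
    rw [integral_complex_ofReal]
    congr 1
    have e2 := integral_fintype_prod_volume_eq_prod (𝕜 := ℝ) (fun (v : InfinitePlace k)
      (b : H3 × H3) => ((κE (InfinitePlace.mk (φ v))).k (x v)
        (GeneralLinearGroup.map (φ v) t • b.1) *
      (κE (InfinitePlace.mk ((φ v).comp (σ : E →+* E)))).k b.1
        (GeneralLinearGroup.map ((φ v).comp (σ : E →+* E)) t • b.2) *
      (κE (InfinitePlace.mk (((φ v).comp (σ : E →+* E)).comp (σ : E →+* E)))).k b.2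
        (GeneralLinearGroup.map (((φ v).comp (σ : E →+* E)).comp (σ : E →+* E)) t • x v)))
    refine e2.trans (Finset.prod_congr rfl fun v _ => ?_)
    rw [triple, map_mul3 t ht hφ v, hκ]
    rfl

end Coord

end T3

end Fermat.Agent.LT
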