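import Fermat.Agent.LT.T3.Sum
import Fermat.Agent.LT.Tw.Class

set_option autoImplicit false
set_option linter.unusedSectionVars false
set_option linter.unusedVariables false
set_option linter.unusedTactic false

/-!
# The norm correspondence between `σ`-conjugacy classes of `PGL₂(E)` and classes of `PGL₂(k)`
-/

namespace Fermat.Agent.LT.T3

open Matrix Tw
open scoped MatrixGroups

/-- a group, with its twisted conjugation -/
structure TwC {G : Type*} [Group G] (θ : G →* G) where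
  /-- the underlying element -/
  val : G

@[ext] theorem TwC.ext' {G : Type*} [Group G] {θ : G →* G} {X X' : TwC θ}
    (h : X.val = X'.val) : X = X' := by
  cases X; cases X'; congr

instance {G : Type*} [Group G] (θ : G →* G) : MulAction G (TwC θ) where
  smul g X := ⟨g * X.val * (θ g)⁻¹⟩
  one_smul X := by
    apply TwC.ext'
    change 1 * X.val * (θ 1)⁻¹ = X.val
    rw [map_one, inv_one, mul_one, one_mul]
  mul_smul g h X := by
    apply TwC.ext'
    change g * h * X.val * (θ (g * h))⁻¹ = g * (h * X.val * (θ h)⁻¹) * (θ g)⁻¹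
    rw [map_mul]
    group

@[simp] theorem TwC.val_smul {G : Type*} [Group G] {θ : G →* G} (g : G) (X : TwC θ) :
    (g • X).val = g * X.val * (θ g)⁻¹ := rfl

/-- the underlying group element -/
def TwC.equiv {G : Type*} [Group G] (θ : G →* G) : G ≃ TwC θ where
  toFun g := ⟨g⟩
  invFun X := X.val
  left_inv _ := rfl
  right_inv _ := rfl

theorem TwC.equiv_apply {G : Type*} [Group G] (θ : G →* G) (g : G) :
    TwC.equiv θ g = ⟨g⟩ := rfl

theorem TwC.mem_stab {G : Type*} [Group G] {θ : G →* G} {g : G} {X : TwC θ} :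
    g ∈ MulAction.stabilizer G X ↔ g * X.val * (θ g)⁻¹ = X.val := by
  rw [MulAction.mem_stabilizer_iff]
  exact ⟨fun h => congrArg TwC.val h, fun h => TwC.ext' h⟩

instance {G : Type*} [Group G] (θ : G →* G) [h : Countable G] : Countable (TwC θ) :=
  (TwC.equiv θ).symm.injective.countable

section GLsec

variable {F : Type*} [Field F]

theorem mk_sc (c : Fˣ) : (ProjGenLinGroup.mk (Tw.sc c) : PGL(2, F)) = 1 :=
  ProjGenLinGroup.mk_scalar c

theorem mk_sc_mul (c : Fˣ) (g : GL (Fin 2) F) :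
    (ProjGenLinGroup.mk (Tw.sc c * g) : PGL(2, F)) = ProjGenLinGroup.mk g := by
  rw [map_mul, mk_sc, one_mul]

theorem exists_sc {g h : GL (Fin 2) F}
    (e : (ProjGenLinGroup.mk g : PGL(2, F)) = ProjGenLinGroup.mk h) :
    ∃ c : Fˣ, g = Tw.sc c * h := by
  obtain ⟨u, hu⟩ := ProjGenLinGroup.mk_eq_mk_iff.mp e.symm
  exact ⟨u, by rw [← hu, Tw.sc_comm]; rfl⟩

end GLsec

variable {k E : Type*} [Field k] [Field E] [Algebra k E] (σ : E ≃ₐ[k] E)

/-- the action of `σ` on `PGL₂(E)` -/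
noncomputable def thP : PGL(2, E) →* PGL(2, E) := ProjGenLinGroup.map (σ : E →+* E)

variable (k E) in
/-- base change `PGL₂(k) → PGL₂(E)` -/
noncomputable def bcP : PGL(2, k) →* PGL(2, E) := ProjGenLinGroup.map (algebraMap k E)

theorem thP_mk (g : GL (Fin 2) E) :
    thP σ (ProjGenLinGroup.mk g) = ProjGenLinGroup.mk (sg σ g) := rfl

theorem bcP_mk (g : GL (Fin 2) k) :
    bcP k E (ProjGenLinGroup.mk g) = ProjGenLinGroup.mk (bc g) := rfl

theorem thP_bcP (g : PGL(2, k)) : thP σ (bcP k E g) = bcP k E g := by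
  induction g using ProjGenLinGroup.induction_on with
  | mk g => rw [bcP_mk, thP_mk, sg_bc]

theorem bcP_injective : Function.Injective (bcP k E) := by
  intro g g' e
  induction g using ProjGenLinGroup.induction_on with | mk g =>
  induction g' using ProjGenLinGroup.induction_on with | mk g' =>
  rw [bcP_mk, bcP_mk] at e
  obtain ⟨c, hc⟩ := exists_sc e
  -- `c` lies in `k`
  have hent : ∀ i j, algebraMap k E (g i j) = (c : E) * algebraMap k E (g' i j) := by
    intro i j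
    have := congrArg (fun m : GL (Fin 2) E => m i j) hc
    simp only [Units.val_mul, coe_sc] at this
    simpa using this
  have hne : ∃ i j, g' i j ≠ 0 := by
    by_contra hcon
    push Not at hcon
    have h0 : (g' : Matrix (Fin 2) (Fin 2) k) = 0 := by ext i j; exact hcon i j
    exact g'.ne_zero h0
  obtain ⟨i, j, hij⟩ := hne
  have hcv : (c : E) = algebraMap k E (g i j / g' i j) := by
    rw [map_div₀, hent i j]
    have : algebraMap k E (g' i j) ≠ 0 := (map_ne_zero _).2 hij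
    field_simp
  have hd : g i j / g' i j ≠ 0 := by
    intro h0
    rw [h0, map_zero] at hcv
    exact c.ne_zero hcv
  have h2 : g = Tw.sc (Units.mk0 _ hd) * g' := by
    apply Units.ext
    ext a b
    apply (algebraMap k E).injective
    rw [hent a b, hcv, Units.val_mul, coe_sc]
    simp
  rw [h2, mk_sc_mul]

theorem ell_of_bc {g : GL (Fin 2) k} (h : Ell (bc (E := E) g : Matrix (Fin 2) (Fin 2) E)) :
    Ell (g : Matrix (Fin 2) (Fin 2) k) := by
  rw [ell_iff] at h ⊢
  intro x hx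
  apply h (algebraMap k E x)
  rw [coe_bc, Tw.trace_map', Tw.det_map', ← map_mul, ← map_mul, ← map_sub, ← map_add, hx, map_zero]

theorem ell_conj {F : Type*} [Field F] {g : GL (Fin 2) F} (y : GL (Fin 2) F)
    (h : Ell (g : Matrix (Fin 2) (Fin 2) F)) :
    Ell ((y * g * y⁻¹ : GL (Fin 2) F) : Matrix (Fin 2) (Fin 2) F) := by
  rw [ell_iff] at h ⊢
  rw [Tw.trace_conj, Units.val_mul, Units.val_mul, det_mul, det_mul, mul_comm (det _) (det _),
    mul_assoc, ← det_mul, ← Units.val_mul, mul_inv_cancel, Units.val_one, det_one, mul_one]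
  exact h

theorem ell_sc {F : Type*} [Field F] {g : GL (Fin 2) F} (c : Fˣ)
    (h : Ell (g : Matrix (Fin 2) (Fin 2) F)) :
    Ell ((Tw.sc c * g : GL (Fin 2) F) : Matrix (Fin 2) (Fin 2) F) := by
  rw [Units.val_mul, coe_sc, smul_mul_assoc, one_mul]
  exact ell_smul h c.ne_zero

theorem trace_sc {F : Type*} [Field F] {g : GL (Fin 2) F} (c : Fˣ)
    (h : (g : Matrix (Fin 2) (Fin 2) F).trace ≠ 0) :
    ((Tw.sc c * g : GL (Fin 2) F) : Matrix (Fin 2) (Fin 2) F).trace ≠ 0 := by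
  rw [Units.val_mul, coe_sc, smul_mul_assoc, one_mul, trace_smul, smul_eq_mul]
  exact mul_ne_zero c.ne_zero h

/-- **The norm correspondence.** -/
def NRel (X : TwC (thP σ)) (γ : TwC (MonoidHom.id PGL(2, k))) : Prop :=
  ∃ (t : GL (Fin 2) E) (g : GL (Fin 2) k), ProjGenLinGroup.mk t = X.val ∧
    ProjGenLinGroup.mk g = γ.val ∧ nm σ t = bc g ∧
    Ell (g : Matrix (Fin 2) (Fin 2) k) ∧ (g : Matrix (Fin 2) (Fin 2) k).trace ≠ 0

/-- the relevant twisted classes -/
def RelE (X : TwC (thP σ)) : Prop :=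
  ∃ t : GL (Fin 2) E, ProjGenLinGroup.mk t = X.val ∧
    Ell (nm σ t : Matrix (Fin 2) (Fin 2) E) ∧ (nm σ t : Matrix (Fin 2) (Fin 2) E).trace ≠ 0

/-- the relevant classes, which are norms -/
def RelK (γ : TwC (MonoidHom.id PGL(2, k))) : Prop :=
  ∃ (g : GL (Fin 2) k) (t : GL (Fin 2) E), ProjGenLinGroup.mk g = γ.val ∧
    Ell (g : Matrix (Fin 2) (Fin 2) k) ∧ (g : Matrix (Fin 2) (Fin 2) k).trace ≠ 0 ∧
    nm σ t = bc (Tw.sc (GeneralLinearGroup.det g) * g)

variable {σ}

/-- **classes and twisted classes** -/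
theorem classRel (h : Cyc3 σ) :
    ClassRel PGL(2, E) PGL(2, k) (NRel σ) (RelE σ) (RelK σ) where
  ex₁ := by
    rintro X ⟨t, hX, ht, htr⟩
    obtain ⟨y, γ, hy⟩ := exists_torus σ h t ht.ns
    refine ⟨ProjGenLinGroup.mk y, ⟨ProjGenLinGroup.mk γ⟩, y * t * (sg σ y)⁻¹, γ, ?_,
      rfl, hy, ?_, ?_⟩
    · rw [TwC.val_smul, ← hX, thP_mk]
      exact (map_mul ProjGenLinGroup.mk _ _).trans (by rw [map_mul, map_inv])
    · apply ell_of_bc (E := E)
      rw [← hy, nm_conj σ h]
      exact ell_conj y ht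
    · intro h0
      apply htr
      have h1 : (bc (E := E) γ : Matrix (Fin 2) (Fin 2) E).trace = 0 := by
        rw [coe_bc, Tw.trace_map', h0, map_zero]
      rw [← hy, nm_conj σ h, Tw.trace_conj] at h1
      exact h1
  ex₂ := by
    rintro γ ⟨g, t, hγ, hg, htr, ht⟩
    refine ⟨1, ⟨ProjGenLinGroup.mk t⟩, t, Tw.sc (GeneralLinearGroup.det g) * g, rfl,
      ?_, ht, ell_sc _ hg, trace_sc _ htr⟩
    rw [mk_sc_mul, one_smul, hγ]
  fwd := by
    rintro X X' γ γ' ⟨t, g, hX, hγ, h1, h2, h3⟩ ⟨t', g', hX', hγ', h1', h2', h3'⟩ ⟨y, hy⟩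
    induction y using ProjGenLinGroup.induction_on with | mk y =>
    have hy' := congrArg TwC.val hy
    rw [TwC.val_smul, ← hX, ← hX', thP_mk, ← map_mul, ← map_inv, ← map_mul] at hy'
    obtain ⟨c, hc⟩ := exists_sc hy'.symm
    obtain ⟨x, z, -, hx⟩ := conj_of_twconj σ h h2.ns h2'.ns h1 h1' hc
    refine ⟨ProjGenLinGroup.mk x, TwC.ext' ?_⟩
    rw [TwC.val_smul, ← hγ, ← hγ', MonoidHom.id_apply, ← map_mul, ← map_inv, ← map_mul, hx,
      mk_sc_mul]
  bwd := by
    rintro X X' γ γ' ⟨t, g, hX, hγ, h1, h2, h3⟩ ⟨t', g', hX', hγ', h1', h2', h3'⟩ ⟨x, hx⟩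
    induction x using ProjGenLinGroup.induction_on with | mk x =>
    have hx' := congrArg TwC.val hx
    rw [TwC.val_smul, ← hγ, ← hγ', MonoidHom.id_apply, ← map_mul, ← map_inv, ← map_mul] at hx'
    obtain ⟨z, hz⟩ := exists_sc hx'.symm
    obtain ⟨y, c, hc⟩ := conj_of_conj σ h h2' h1 h1' hz
    refine ⟨ProjGenLinGroup.mk y, TwC.ext' ?_⟩
    rw [TwC.val_smul, ← hX, ← hX', thP_mk, ← map_mul, ← map_inv, ← map_mul, hc, mk_sc_mul]

/-- lifts of elements of the stabiliser -/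
theorem exists_lift {g : GL (Fin 2) k} (htr : (g : Matrix (Fin 2) (Fin 2) k).trace ≠ 0)
    {τ : PGL(2, k)} (hτ : τ * ProjGenLinGroup.mk g * τ⁻¹ = ProjGenLinGroup.mk g) :
    ∃ y : GL (Fin 2) k, ProjGenLinGroup.mk y = τ ∧ y * g = g * y := by
  induction τ using ProjGenLinGroup.induction_on with | mk y =>
  rw [← map_mul, ← map_inv, ← map_mul] at hτ
  obtain ⟨z, hz⟩ := exists_sc hτ
  have h1 := Tw.trace_conj y g
  rw [hz, Units.val_mul, coe_sc, smul_mul_assoc, one_mul, trace_smul, smul_eq_mul] at h1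
  have h2 : (z : k) = 1 := by
    have : ((z : k) - 1) * (g : Matrix (Fin 2) (Fin 2) k).trace = 0 := by linear_combination h1
    rcases mul_eq_zero.1 this with h | h
    · linear_combination h
    · exact absurd h htr
  have h3 : z = 1 := Units.ext h2
  refine ⟨y, rfl, ?_⟩
  rw [h3, map_one, one_mul] at hz
  calc y * g = y * g * y⁻¹ * y := by group
    _ = g * y := by rw [hz]

/-- **the stabilisers** -/
theorem stab_equiv (h : Cyc3 σ) {X : TwC (thP σ)} {γ : TwC (MonoidHom.id PGL(2, k))}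
    (hR : NRel σ X γ) :
    ∃ e : MulAction.stabilizer PGL(2, k) γ ≃ MulAction.stabilizer PGL(2, E) X,
      ∀ τ, ((e τ : MulAction.stabilizer PGL(2, E) X) : PGL(2, E)) = bcP k E (τ : PGL(2, k)) := by
  obtain ⟨t, g, hX, hγ, h1, h2, h3⟩ := hR
  have key : ∀ τ : PGL(2, k), τ * ProjGenLinGroup.mk g * τ⁻¹ = ProjGenLinGroup.mk g →
      bcP k E τ * ProjGenLinGroup.mk t * (thP σ (bcP k E τ))⁻¹ = ProjGenLinGroup.mk t := by
    intro τ hτ
    obtain ⟨y, rfl, hy⟩ := exists_lift h3 hτ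
    have := centralises σ h h2.ns h1 hy
    rw [bcP_mk, thP_mk, ← map_mul, ← map_inv, ← map_mul, this]
  have key2 : ∀ x : PGL(2, E), x * ProjGenLinGroup.mk t * (thP σ x)⁻¹ = ProjGenLinGroup.mk t →
      ∃ τ : PGL(2, k), τ * ProjGenLinGroup.mk g * τ⁻¹ = ProjGenLinGroup.mk g ∧ bcP k E τ = x := by
    intro x hx
    induction x using ProjGenLinGroup.induction_on with | mk x =>
    rw [thP_mk, ← map_mul, ← map_inv, ← map_mul] at hx
    obtain ⟨c, hc⟩ := exists_sc hx
    obtain ⟨d, y0, hy0, rfl⟩ := centraliser σ h h2.ns h3 h1 hc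
    refine ⟨ProjGenLinGroup.mk y0, ?_, ?_⟩
    · rw [← map_mul, ← map_inv, ← map_mul, hy0, mul_inv_cancel_right]
    · rw [bcP_mk, mk_sc_mul]
  refine ⟨Equiv.ofBijective (fun τ => ⟨bcP k E (τ : PGL(2, k)), by
    rw [TwC.mem_stab, ← hX]
    refine key _ ?_
    have := TwC.mem_stab.1 τ.2
    rwa [← hγ] at this⟩) ⟨?_, ?_⟩, fun τ => rfl⟩
  · intro τ τ' e
    exact Subtype.ext (bcP_injective (congrArg Subtype.val e))
  · intro x
    obtain ⟨τ, hτ, hτ'⟩ := key2 (x : PGL(2, E)) (by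
      have := TwC.mem_stab.1 x.2
      rwa [← hX] at this)
    exact ⟨⟨τ, by rw [TwC.mem_stab, ← hγ]; exact hτ⟩, Subtype.ext hτ'⟩

end Fermat.Agent.LT.T3
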