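import Fermat.Agent.LT.T3.Arch
import Fermat.Agent.LT.T3.Rel
import Fermat.Agent.LT.Op.Full
import Fermat.Agent.LT.Sp.Cover
import Fermat.Agent.LT.Loc.Match

set_option autoImplicit false
set_option linter.unusedSectionVars false
set_option linter.unusedVariables false
set_option linter.style.haveILetI false

/-!
# Comparison of one term of the geometric sides
-/

open scoped ENNReal NNReal MatrixGroups
open MeasureTheory NumberField Matrix

namespace Fermat.Agent.LT.T3

open Tw Sp FA Op Loc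

universe z u

variable {k : Type u} {E : Type*} [Field k] [NumberField k] [IsTotallyComplex k] [Field E]
  [NumberField E] [IsTotallyComplex E] [Algebra k E] {σ : E ≃ₐ[k] E}
  {DE Dk : Type*} [MulAction (GL (Fin 2) E) DE] [MulAction (GL (Fin 2) k) Dk] [FinPart E DE]
  [FinPart k Dk] [MeasurableSpace DE] [DiscreteMeasurableSpace DE] [Countable DE]
  [MeasurableSpace Dk] [DiscreteMeasurableSpace Dk] [Countable Dk]

/-- the twisted action of `PGL₂(E)` -/
theorem act_smulP (T : Twist E DE) (hT : T.θ = (σ : E ≃+* E)) (g : PGL(2, E)) (y : HF E × DE) :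
    T.act (g • y) = thP σ g • T.act y := by
  induction g using ProjGenLinGroup.induction_on with
  | mk g =>
    have h1 := T.act_smul g y
    have h2 : T.gm g = sg σ g := by
      ext i j
      rw [Twist.gm_apply, hT]
      rfl
    rw [h2] at h1
    exact h1

section Corr

variable (k E) in
/-- the action of a subgroup of `PGL₂(k)` by base change -/
@[reducible] noncomputable def actBC (S : Subgroup PGL(2, k)) (Y : Type*) [MulAction PGL(2, E) Y] :
    MulAction S Y := MulAction.compHom Y ((bcP k E).comp S.subtype)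

end Corr

/-- the data needed at the finite places -/
def FinCorr (σ : E ≃ₐ[k] E) (T : Twist E DE) (φE : DKer E DE) (φk : DKer k Dk) : Prop :=
  ∀ (γ : GL (Fin 2) k) (t : GL (Fin 2) E),
    (γ : Matrix (Fin 2) (Fin 2) k).trace ^ 2 - 4 * (γ : Matrix (Fin 2) (Fin 2) k).det ≠ 0 →
    nm σ t = bc γ →
    ∃ (Z : Type z) (p : Z → DE) (q : Z → Dk) (w : Z → ℂ),
      (∀ y : GL (Fin 2) k, y * γ = γ * y → ∃ e : Z ≃ Z, (∀ z, p (e z) = bc (E := E) y • p z) ∧
        (∀ z, q (e z) = y • q z) ∧ ∀ z, w (e z) = w z) ∧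
      (∀ y, {z | p z = y}.Finite) ∧ (∀ y, {z | q z = y}.Finite) ∧
      (∀ y, ∑ᶠ z ∈ {z | p z = y}, w z = φE.κ y (t • T.dm y)) ∧
      (∀ y, ∑ᶠ z ∈ {z | q z = y}, w z = φk.κ y (γ • y)) ∧
      ∀ y, ∑ᶠ z ∈ {z | p z = y}, ‖w z‖ = ‖φE.κ y (t • T.dm y)‖

theorem finCorr_of_localCorr {T : Twist E DE} {φE : DKer E DE} {φk : DKer k Dk}
    (h : ∀ (γ : GL (Fin 2) k) (t : GL (Fin 2) E),
    (γ : Matrix (Fin 2) (Fin 2) k).trace ^ 2 - 4 * (γ : Matrix (Fin 2) (Fin 2) k).det ≠ 0 →
    nm σ t = bc γ →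
    ∃ C : @LocalCorr.{z} (Subgroup.centralizer {γ}) _ DE Dk
      (MulAction.compHom DE ((bc (k := k) (E := E)).comp (Subgroup.centralizer {γ}).subtype))
      (MulAction.compHom Dk (Subgroup.centralizer {γ}).subtype)
      (fun y => φE.κ y (t • T.dm y)) (fun y => φk.κ y (γ • y)),
      @LocalCorr.NC.{z} (Subgroup.centralizer {γ}) _ DE Dk
        (MulAction.compHom DE ((bc (k := k) (E := E)).comp (Subgroup.centralizer {γ}).subtype))
        (MulAction.compHom Dk (Subgroup.centralizer {γ}).subtype) _ _ C) :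
    FinCorr.{z} σ T φE φk := by
  intro γ t hd ht
  obtain ⟨C, hC⟩ := h γ t hd ht
  letI a1 : MulAction (Subgroup.centralizer {γ}) DE :=
    MulAction.compHom DE ((bc (k := k) (E := E)).comp (Subgroup.centralizer {γ}).subtype)
  letI a2 : MulAction (Subgroup.centralizer {γ}) Dk :=
    MulAction.compHom Dk (Subgroup.centralizer {γ}).subtype
  refine ⟨C.Z, C.p, C.q, C.w, fun y hy => ?_, C.fin_p, C.fin_q, C.sum_p, C.sum_q, hC⟩
  have hm : y ∈ Subgroup.centralizer ({γ} : Set (GL (Fin 2) k)) := by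
    rw [Subgroup.mem_centralizer_iff]
    intro h hh
    rw [Set.mem_singleton_iff] at hh
    rw [hh]
    exact hy.symm
  exact ⟨@MulAction.toPerm _ _ _ C.act (⟨y, hm⟩ : Subgroup.centralizer ({γ} : Set (GL (Fin 2) k))),
    fun z => C.p_smul _ z, fun z => C.q_smul _ z, fun z => C.w_smul _ z⟩

theorem disc_ne {γ : GL (Fin 2) k} (h : Ell (γ : Matrix (Fin 2) (Fin 2) k)) :
    (γ : Matrix (Fin 2) (Fin 2) k).trace ^ 2 - 4 * (γ : Matrix (Fin 2) (Fin 2) k).det ≠ 0 := by
  intro h0
  rw [ell_iff] at h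
  have h2 : (2 : k) ≠ 0 := two_ne_zero
  apply h ((γ : Matrix (Fin 2) (Fin 2) k).trace / 2)
  field_simp
  linear_combination -h0

/-- **one term of the comparison** -/
theorem term_match (hσ : Cyc3 σ) {ψ : InfinitePlace k → (E →+* ℂ)}
    (hψ : ∀ v, (ψ v).comp (algebraMap k E) = v.embedding)
    (T : Twist E DE) (hT : T.θ = (σ : E ≃+* E))
    (κE : InfinitePlace E → IKer) (κk : InfinitePlace k → IKer)
    (hκ : ∀ v p p', (κk v).k p p' = (IKer.comp (κE (InfinitePlace.mk (ψ v)))
      (IKer.comp (κE (InfinitePlace.mk ((ψ v).comp (σ : E →+* E))))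
        (κE (InfinitePlace.mk (((ψ v).comp (σ : E →+* E)).comp (σ : E →+* E)))))).k p p')
    (φE : DKer E DE) (φk : DKer k Dk) (hC : FinCorr.{z} σ T φE φk)
    {wE : HF E × DE → ℝ≥0} (hwE : IsWt PGL(2, E) (muY E DE) wE)
    {wk : HF k × Dk → ℝ≥0} (hwk : IsWt PGL(2, k) (muY k Dk) wk)
    {X : TwC (thP σ)} {γ : TwC (MonoidHom.id PGL(2, k))} (hR : NRel σ X γ)
    (hm₁ : Measurable fun y => pk κE φE y (X.val • T.act y))
    (hm₂ : Measurable fun x => pk κk φk x (γ.val • x))
    (hi₁ : AEInv (MulAction.stabilizer PGL(2, E) X) (muY E DE)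
      fun y => pk κE φE y (X.val • T.act y))
    (hi₂ : AEInv (MulAction.stabilizer PGL(2, k) γ) (muY k Dk) fun x => pk κk φk x (γ.val • x))
    (hint : ∫⁻ y, ‖pk κE φE y (X.val • T.act y)‖ₑ
      ∂(wtM (muY E DE) (wtSub (MulAction.stabilizer PGL(2, E) X) wE)) ≠ ∞) :
    qint (MulAction.stabilizer PGL(2, E) X) (muY E DE) (fun y => pk κE φE y (X.val • T.act y)) =
    qint (MulAction.stabilizer PGL(2, k) γ) (muY k Dk) (fun x => pk κk φk x (γ.val • x)) := by
  classical
  obtain ⟨e, he⟩ := stab_equiv hσ hR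
  obtain ⟨t, g, hX, hγ, h1, h2, h3⟩ := hR
  have hw₁ := hwE.sub (MulAction.stabilizer PGL(2, E) X)
  have hw₂ := hwk.sub (MulAction.stabilizer PGL(2, k) γ)
  rw [hw₁.qint_eq hm₁.aestronglyMeasurable hi₁, hw₂.qint_eq hm₂.aestronglyMeasurable hi₂]
  obtain ⟨Z, p, q, w, hact, fin_p, fin_q, sum_p, sum_q, hNC⟩ := hC g t (disc_ne h2) h1
  -- lifts of the elements of the stabiliser
  have hlift : ∀ s : MulAction.stabilizer PGL(2, k) γ, ∃ y : GL (Fin 2) k,
      ProjGenLinGroup.mk y = (s : PGL(2, k)) ∧ y * g = g * y := by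
    intro s
    have := TwC.mem_stab.1 s.2
    rw [← hγ] at this
    exact exists_lift h3 this
  choose l hl hl' using hlift
  choose e' hep heq hew using fun s => hact (l s) (hl' s)
  letI aA : MulAction (MulAction.stabilizer PGL(2, k) γ) (HF E) := actBC k E _ _
  letI aD : MulAction (MulAction.stabilizer PGL(2, k) γ) DE := actBC k E _ _
  have hsA : ∀ (s : MulAction.stabilizer PGL(2, k) γ) (a : HF E),
      s • a = bc (E := E) (l s) • a := by
    intro s a
    change bcP k E (s : PGL(2, k)) • a = _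
    rw [← hl s, bcP_mk]
    rfl
  have hsD : ∀ (s : MulAction.stabilizer PGL(2, k) γ) (d : DE),
      s • d = bc (E := E) (l s) • d := by
    intro s d
    change bcP k E (s : PGL(2, k)) • d = _
    rw [← hl s, bcP_mk]
    rfl
  have hsA' : ∀ (s : MulAction.stabilizer PGL(2, k) γ) (a : HF k), s • a = l s • a := by
    intro s a
    change (s : PGL(2, k)) • a = _
    rw [← hl s]
    rfl
  have hsD' : ∀ (s : MulAction.stabilizer PGL(2, k) γ) (a : Dk), s • a = l s • a := by
    intro s a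
    change (s : PGL(2, k)) • a = _
    rw [← hl s]
    rfl
  haveI iM : MeasurableConstSMul (MulAction.stabilizer PGL(2, k) γ) (HF E) := ⟨fun s => by
    have : (fun a : HF E => s • a) = fun a => bc (E := E) (l s) • a := funext (hsA s)
    rw [this]
    exact (continuous_smul_HF _).measurable⟩
  haveI iI : SMulInvariantMeasure (MulAction.stabilizer PGL(2, k) γ) (HF E) volume :=
    ⟨fun s B hB => by
      have : (fun a : HF E => s • a) = fun a => bc (E := E) (l s) • a := funext (hsA s)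
      rw [this]
      exact (measurePreserving_smul_HF _).measure_preimage hB.nullMeasurableSet⟩
  have hw₁' : IsWt (MulAction.stabilizer PGL(2, k) γ) ((volume : Measure (HF E)).prod
      (Measure.count : Measure DE)) (wtSub (MulAction.stabilizer PGL(2, E) X) wE) := by
    have h4 := hw₁.comap (G₁ := MulAction.stabilizer PGL(2, k) γ) (μ₁ := muY E DE)
      (φ := fun y => y) measurable_id (fun s hs h0 => h0) e (fun s => by
        refine Filter.Eventually.of_forall fun y => ?_
        change bcP k E (s : PGL(2, k)) • y = (e s : PGL(2, E)) • y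
        rw [he])
    exact h4
  letI : MeasurableSpace Z := ⊤
  haveI : DiscreteMeasurableSpace Z := ⟨fun _ => trivial⟩
  haveI : Countable Z := by
    have h5 : (Set.univ : Set Z) = ⋃ d : DE, {z | p z = d} := by
      ext z; simp
    have h6 : (Set.univ : Set Z).Countable := by
      rw [h5]
      exact Set.countable_iUnion fun d => (fin_p d).countable
    exact Set.countable_univ_iff.mp h6
  have hP := arch_push hσ hψ κE κk hκ h1
  have hcomm : ∀ s, bc (E := E) (l s) * t = t * sg σ (bc (l s)) := by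
    intro s
    have := centralises σ hσ h2.ns h1 (hl' s)
    calc bc (E := E) (l s) * t = (bc (E := E) (l s) * t * (sg σ (bc (l s)))⁻¹) *
        sg σ (bc (l s)) := by group
      _ = t * sg σ (bc (l s)) := by rw [this]
  have hF : ∀ y : HF E × DE, pk κE φE y (X.val • T.act y) = φE.κ y.2 (t • T.dm y.2) *
      ((∏ w, (κE w).k (y.1 w) ((t • thetaHF (σ : E ≃+* E) y.1) w) : ℝ) : ℂ) := by
    intro y
    rw [← hX, pk_apply, mul_comm, ← hT]
    rfl
  have hF' : ∀ x : HF k × Dk, pk κk φk x (γ.val • x) = φk.κ x.2 (g • x.2) *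
      ((∏ v, (κk v).k (x.1 v) ((g • x.1) v) : ℝ) : ℂ) := by
    intro y
    rw [← hγ, pk_apply, mul_comm]
    rfl
  simp_rw [hF] at hint
  simp_rw [hF, hF']
  refine corr_integral (S := MulAction.stabilizer PGL(2, k) γ) (p := p) (q := q) (w := w)
    (e := e') hP (fun s a => by rw [hsA, arPi_smul hψ, ← hsA']) ?_ (fun s z => by rw [hep, hsD])
    (fun s z => by rw [heq, hsD']) hew fin_p fin_q sum_p sum_q hNC hw₁' hw₂ hint
  intro s a
  have e1 : thetaHF (σ : E ≃+* E) (s • a) = sg σ (bc (l s)) • thetaHF (σ : E ≃+* E) a := by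
    rw [hsA, thetaHF_smul]
    rfl
  have e2 : t • thetaHF (σ : E ≃+* E) (s • a) = bc (E := E) (l s) • (t •
      thetaHF (σ : E ≃+* E) a) := by
    rw [e1, ← mul_smul, ← hcomm, mul_smul]
  have e3 := archK_smul κE (bc (E := E) (l s)) a (t • thetaHF (σ : E ≃+* E) a)
  rw [archK, archK] at e3
  rw [e2, hsA]
  exact congrArg _ e3

end Fermat.Agent.LT.T3
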