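import Fermat.Agent.LT.T3.Term
import Fermat.Agent.LT.Sp.Integ

set_option autoImplicit false
set_option linter.unusedSectionVars false
set_option linter.unusedVariables false

/-!
# The comparison of the geometric sides
-/

open scoped ENNReal NNReal MatrixGroups
open MeasureTheory NumberField Matrix

namespace Fermat.Agent.LT.T3

open Tw Sp FA Op Loc

universe z u

variable {k : Type u} {E : Type*} [Field k] [NumberField k] [IsTotallyComplex k] [Field E]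
  [NumberField E] [IsTotallyComplex E] [Algebra k E] {σ : E ≃ₐ[k] E}
  {DE Dk : Type*} [MulAction (GL (Fin 2) E) DE] [MulAction (GL (Fin 2) k) Dk] [FinPart E DE]
  [FinPart k Dk] [MeasurableSpace DE] [DiscreteMeasurableSpace DE] [Countable DE]
  [MeasurableSpace Dk] [DiscreteMeasurableSpace Dk] [Countable Dk]

/-- the terms of the twisted geometric side -/
noncomputable def tE (σ : E ≃ₐ[k] E) (T : Twist E DE) (κE : InfinitePlace E → IKer)
    (φE : DKer E DE) (X : TwC (thP σ)) (y : HF E × DE) : ℂ := pk κE φE y (X.val • T.act y)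

/-- the terms of the geometric side -/
noncomputable def tk (κk : InfinitePlace k → IKer) (φk : DKer k Dk)
    (γ : TwC (MonoidHom.id PGL(2, k))) (x : HF k × Dk) : ℂ := pk κk φk x (γ.val • x)

theorem measurable_tE (T : Twist E DE) (κE : InfinitePlace E → IKer) (φE : DKer E DE)
    (X : TwC (thP σ)) : Measurable (tE σ T κE φE X) :=
  measurable_twisted T (measurable_pk κE φE) X.val

theorem measurable_smulk (g : PGL(2, k)) : Measurable fun x : HF k × Dk => g • x :=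
  measurable_const_smul g

theorem measurable_tk (κk : InfinitePlace k → IKer) (φk : DKer k Dk)
    (γ : TwC (MonoidHom.id PGL(2, k))) : Measurable (tk κk φk γ) := by
  have h1 := (measurable_pk κk φk).comp
    ((measurable_id (α := HF k × Dk)).prodMk (measurable_smulk (Dk := Dk) γ.val))
  exact h1

theorem tE_smul (T : Twist E DE) (hT : T.θ = (σ : E ≃+* E)) (κE : InfinitePlace E → IKer)
    (φE : DKer E DE) (g : PGL(2, E)) (X : TwC (thP σ)) (y : HF E × DE) :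
    tE σ T κE φE (g • X) (g • y) = tE σ T κE φE X y := by
  rw [tE, tE, act_smulP T hT, TwC.val_smul, ← mul_smul, inv_mul_cancel_right, mul_smul, pk_smul]

theorem tk_smul (κk : InfinitePlace k → IKer) (φk : DKer k Dk) (g : PGL(2, k))
    (γ : TwC (MonoidHom.id PGL(2, k))) (x : HF k × Dk) :
    tk κk φk (g • γ) (g • x) = tk κk φk γ x := by
  rw [tk, tk, TwC.val_smul, MonoidHom.id_apply, ← mul_smul, inv_mul_cancel_right, mul_smul,
    pk_smul]

/-- **The comparison of the geometric sides** (the trace formula identity). -/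
theorem trace_match (hσ : Cyc3 σ) {ψ : InfinitePlace k → (E →+* ℂ)}
    (hψ : ∀ v, (ψ v).comp (algebraMap k E) = v.embedding)
    (T : Twist E DE) (hT : T.θ = (σ : E ≃+* E))
    (κE : InfinitePlace E → IKer) (κk : InfinitePlace k → IKer)
    (hκ : ∀ v p p', (κk v).k p p' = (IKer.comp (κE (InfinitePlace.mk (ψ v)))
      (IKer.comp (κE (InfinitePlace.mk ((ψ v).comp (σ : E →+* E))))
        (κE (InfinitePlace.mk (((ψ v).comp (σ : E →+* E)).comp (σ : E →+* E)))))).k p p')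
    (φE : DKer E DE) (φk : DKer k Dk) (hC : FinCorr.{z} σ T φE φk)
    {wE : HF E × DE → ℝ≥0} (hwE : IsWt PGL(2, E) (muY E DE) wE)
    {wk : HF k × Dk → ℝ≥0} (hwk : IsWt PGL(2, k) (muY k Dk) wk)
    (hE : ∀ (t : GL (Fin 2) E) (y : HF E × DE), pk κE φE y (t • T.act y) ≠ 0 →
      Ell (nm σ t : Matrix (Fin 2) (Fin 2) E) ∧ (nm σ t : Matrix (Fin 2) (Fin 2) E).trace ≠ 0)
    (hK : ∀ (g : GL (Fin 2) k) (x : HF k × Dk), pk κk φk x (g • x) ≠ 0 →
      Ell (g : Matrix (Fin 2) (Fin 2) k) ∧ (g : Matrix (Fin 2) (Fin 2) k).trace ≠ 0)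
    (hN : ∀ (g : GL (Fin 2) k) (x : HF k × Dk), pk κk φk x (g • x) ≠ 0 →
      Ell (g : Matrix (Fin 2) (Fin 2) k) → ∃ t : GL (Fin 2) E,
        nm σ t = bc (Tw.sc (GeneralLinearGroup.det g) * g))
    (hfE : ∑' δ : PGL(2, E), ∫⁻ y, ‖pk κE φE y (δ • T.act y)‖ₑ ∂(wtM (muY E DE) wE) ≠ ∞)
    (hfK : ∑' γ : PGL(2, k), ∫⁻ x, ‖pk κk φk x (γ • x)‖ₑ ∂(wtM (muY k Dk) wk) ≠ ∞) :
    ∫ y, ∑' δ : PGL(2, E), pk κE φE y (δ • T.act y) ∂(wtM (muY E DE) wE) =
      ∫ x, ∑' γ : PGL(2, k), pk κk φk x (γ • x) ∂(wtM (muY k Dk) wk) := by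
  have m₁ : ∀ X : TwC (thP σ), AEStronglyMeasurable (tE σ T κE φE X) (muY E DE) := fun X =>
    (measurable_tE T κE φE X).aestronglyMeasurable
  have m₂ : ∀ γ : TwC (MonoidHom.id PGL(2, k)), AEStronglyMeasurable (tk κk φk γ) (muY k Dk) :=
    fun γ => (measurable_tk κk φk γ).aestronglyMeasurable
  have i₁ : ∀ (g : PGL(2, E)) (X : TwC (thP σ)), ∀ᵐ y ∂(muY E DE),
      tE σ T κE φE (g • X) (g • y) = tE σ T κE φE X y := fun g X =>
    Filter.Eventually.of_forall (tE_smul T hT κE φE g X)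
  have i₂ : ∀ (g : PGL(2, k)) (γ : TwC (MonoidHom.id PGL(2, k))), ∀ᵐ x ∂(muY k Dk),
      tk κk φk (g • γ) (g • x) = tk κk φk γ x := fun g γ =>
    Filter.Eventually.of_forall (tk_smul κk φk g γ)
  have f₁ : ∑' X : TwC (thP σ), ∫⁻ y, ‖tE σ T κE φE X y‖ₑ ∂(wtM (muY E DE) wE) ≠ ∞ := by
    rw [← (TwC.equiv (thP σ)).tsum_eq]
    exact hfE
  have f₂ : ∑' γ : TwC (MonoidHom.id PGL(2, k)), ∫⁻ x, ‖tk κk φk γ x‖ₑ
      ∂(wtM (muY k Dk) wk) ≠ ∞ := by
    rw [← (TwC.equiv (MonoidHom.id PGL(2, k))).tsum_eq]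
    exact hfK
  have hA₁ : ∀ X : TwC (thP σ), (∃ y, tE σ T κE φE X y ≠ 0) → RelE σ X := by
    rintro X ⟨y, hy⟩
    obtain ⟨t, ht⟩ := ProjGenLinGroup.mk_surjective X.val
    rw [tE, ← ht] at hy
    exact ⟨t, ht, hE t y hy⟩
  have hA₂ : ∀ γ : TwC (MonoidHom.id PGL(2, k)), (∃ x, tk κk φk γ x ≠ 0) → RelK σ γ := by
    rintro γ ⟨x, hx⟩
    obtain ⟨g, hg⟩ := ProjGenLinGroup.mk_surjective γ.val
    rw [tk, ← hg] at hx
    obtain ⟨h1, h2⟩ := hK g x hx
    obtain ⟨t, ht⟩ := hN g x hx h1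
    exact ⟨g, t, hg, h1, h2, ht⟩
  have hR : ∀ (X : TwC (thP σ)) (γ : TwC (MonoidHom.id PGL(2, k))), NRel σ X γ →
      qint (MulAction.stabilizer PGL(2, E) X) (muY E DE) (tE σ T κE φE X) =
      qint (MulAction.stabilizer PGL(2, k) γ) (muY k Dk) (tk κk φk γ) := by
    intro X γ hR
    exact term_match hσ hψ T hT κE κk hκ φE φk hC hwE hwk hR (measurable_tE T κE φE X)
      (measurable_tk κk φk γ)
      (aeInv_stab (G := PGL(2, E)) (F := tE σ T κE φE) i₁ X)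
      (aeInv_stab (G := PGL(2, k)) (F := tk κk φk) i₂ γ)
      (integrable_class (F₁ := tE σ T κE φE) hwE m₁ i₁ f₁ X)
  have key := geo_match (classRel hσ) hwE hwk (F₁ := tE σ T κE φE) (F₂ := tk κk φk) m₁ m₂ i₁ i₂
    f₁ f₂ hA₁ hA₂ hR
  have e₁ : ∀ y, ∑' δ : PGL(2, E), pk κE φE y (δ • T.act y) =
      ∑' X : TwC (thP σ), tE σ T κE φE X y := fun y =>
    (TwC.equiv (thP σ)).tsum_eq (fun X => tE σ T κE φE X y)
  have e₂ : ∀ x, ∑' γ : PGL(2, k), pk κk φk x (γ • x) =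
      ∑' γ : TwC (MonoidHom.id PGL(2, k)), tk κk φk γ x := fun x =>
    (TwC.equiv (MonoidHom.id PGL(2, k))).tsum_eq (fun γ => tk κk φk γ x)
  simp_rw [e₁, e₂]
  exact key

end Fermat.Agent.LT.T3
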