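import Fermat.Agent.LT.FA.QInt

set_option autoImplicit false
set_option linter.unusedSectionVars false
set_option linter.unusedVariables false

/-!
# Comparison of integrals along a correspondence
-/

open scoped ENNReal NNReal
open MeasureTheory

namespace Fermat.Agent.LT.T3

open FA

section Two

variable {M S : Type*} [MeasurableSpace M] [Countable S] {m : Measure M} {T : S → M ≃ᵐ M}
  {U U' : M → ℝ≥0} {Φ : M → ℂ}

theorem two_weights_lintegral (hT : ∀ s, MeasurePreserving (T s) m m)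
    (hUm : Measurable U) (hUm' : Measurable U')
    (hU : ∀ᵐ y ∂m, ∑' s, (U ((T s).symm y) : ℝ≥0∞) = 1)
    (hU' : ∀ᵐ y ∂m, ∑' s, (U' (T s y) : ℝ≥0∞) = 1) (hΦm : Measurable Φ)
    (hΦ : ∀ s y, Φ (T s y) = Φ y) :
    (∑' s, ∫⁻ y, (U' (T s y) : ℝ≥0∞) * (U y * ‖Φ y‖ₑ) ∂m = ∫⁻ y, U y * ‖Φ y‖ₑ ∂m) ∧
    ∫⁻ y, U' y * ‖Φ y‖ₑ ∂m = ∫⁻ y, U y * ‖Φ y‖ₑ ∂m := by
  have m1 : Measurable fun y => (U y : ℝ≥0∞) * ‖Φ y‖ₑ := hUm.coe_nnreal_ennreal.mul hΦm.enorm
  have m2 : ∀ s, Measurable fun y => (U' (T s y) : ℝ≥0∞) * (U y * ‖Φ y‖ₑ) := fun s =>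
    (hUm'.comp (T s).measurable).coe_nnreal_ennreal.mul m1
  have e1 : ∑' s, ∫⁻ y, (U' (T s y) : ℝ≥0∞) * (U y * ‖Φ y‖ₑ) ∂m = ∫⁻ y, U y * ‖Φ y‖ₑ ∂m := by
    rw [← lintegral_tsum fun s => (m2 s).aemeasurable]
    refine lintegral_congr_ae ?_
    filter_upwards [hU'] with y hy
    rw [ENNReal.tsum_mul_right, hy, one_mul]
  refine ⟨e1, ?_⟩
  have e2 : ∀ s, ∫⁻ y, (U' (T s y) : ℝ≥0∞) * (U y * ‖Φ y‖ₑ) ∂m =
      ∫⁻ y, (U ((T s).symm y) : ℝ≥0∞) * (U' y * ‖Φ y‖ₑ) ∂m := by
    intro s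
    rw [← (hT s).lintegral_comp_emb (T s).measurableEmbedding
      (fun y => (U ((T s).symm y) : ℝ≥0∞) * (U' y * ‖Φ y‖ₑ))]
    refine lintegral_congr fun y => ?_
    rw [MeasurableEquiv.symm_apply_apply, hΦ]
    ring
  have m3 : ∀ s, Measurable fun y => (U ((T s).symm y) : ℝ≥0∞) * (U' y * ‖Φ y‖ₑ) := fun s =>
    (hUm.comp (T s).symm.measurable).coe_nnreal_ennreal.mul
      (hUm'.coe_nnreal_ennreal.mul hΦm.enorm)
  rw [← e1]
  simp_rw [e2]
  rw [← lintegral_tsum fun s => (m3 s).aemeasurable]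
  refine lintegral_congr_ae ?_
  filter_upwards [hU] with y hy
  rw [ENNReal.tsum_mul_right, hy, one_mul]

theorem two_weights (hT : ∀ s, MeasurePreserving (T s) m m)
    (hUm : Measurable U) (hUm' : Measurable U')
    (hU : ∀ᵐ y ∂m, ∑' s, (U ((T s).symm y) : ℝ≥0∞) = 1)
    (hU' : ∀ᵐ y ∂m, ∑' s, (U' (T s y) : ℝ≥0∞) = 1) (hΦm : Measurable Φ)
    (hΦ : ∀ s y, Φ (T s y) = Φ y) (hint : ∫⁻ y, U y * ‖Φ y‖ₑ ∂m ≠ ∞) :
    ∫ y, U' y • Φ y ∂m = ∫ y, U y • Φ y ∂m := by
  obtain ⟨h1, h2⟩ := two_weights_lintegral hT hUm hUm' hU hU' hΦm hΦ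
  have e3 : ∀ s, (∫ y, U' (T s y) • (U y • Φ y) ∂m) =
      ∫ y, U ((T s).symm y) • (U' y • Φ y) ∂m := by
    intro s
    rw [← (hT s).integral_comp (T s).measurableEmbedding
      (fun y => U ((T s).symm y) • (U' y • Φ y))]
    refine integral_congr_ae (Filter.Eventually.of_forall fun y => ?_)
    simp only [MeasurableEquiv.symm_apply_apply, hΦ]
    rw [smul_comm]
  have m1 : ∀ s, AEStronglyMeasurable (fun y => U' (T s y) • (U y • Φ y)) m := fun s =>
    ((hUm'.comp (T s).measurable).smul (hUm.smul hΦm)).aestronglyMeasurable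
  have m2 : ∀ s, AEStronglyMeasurable (fun y => U ((T s).symm y) • (U' y • Φ y)) m := fun s =>
    ((hUm.comp (T s).symm.measurable).smul (hUm'.smul hΦm)).aestronglyMeasurable
  have f1 : ∑' s, ∫⁻ y, ‖U' (T s y) • (U y • Φ y)‖ₑ ∂m ≠ ∞ := by
    simp_rw [enorm_nnreal_smul]
    rw [h1]
    exact hint
  have f2 : ∑' s, ∫⁻ y, ‖U ((T s).symm y) • (U' y • Φ y)‖ₑ ∂m ≠ ∞ := by
    have : ∀ s, ∫⁻ y, ‖U ((T s).symm y) • (U' y • Φ y)‖ₑ ∂m =
        ∫⁻ y, ‖U' (T s y) • (U y • Φ y)‖ₑ ∂m := by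
      intro s
      rw [← (hT s).lintegral_comp_emb (T s).measurableEmbedding
        (fun y => ‖U ((T s).symm y) • (U' y • Φ y)‖ₑ)]
      refine lintegral_congr fun y => ?_
      rw [MeasurableEquiv.symm_apply_apply, hΦ, smul_comm]
    simp_rw [this]
    exact f1
  have g1 := MeasureTheory.integral_tsum m1 f1
  have g2 := MeasureTheory.integral_tsum m2 f2
  have a1 : ∫ y, ∑' s, U' (T s y) • (U y • Φ y) ∂m = ∫ y, U y • Φ y ∂m := by
    refine integral_congr_ae ?_
    filter_upwards [hU'] with y hy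
    exact tsum_nnreal_smul hy (U y • Φ y)
  have a2 : ∫ y, ∑' s, U ((T s).symm y) • (U' y • Φ y) ∂m = ∫ y, U' y • Φ y ∂m := by
    refine integral_congr_ae ?_
    filter_upwards [hU] with y hy
    exact tsum_nnreal_smul hy (U' y • Φ y)
  rw [← a1, ← a2, g1, g2]
  simp_rw [e3]

end Two

section Fib

variable {Z D : Type*} {p : Z → D} {w : Z → ℂ} {φ : D → ℂ}

theorem tsum_fib (p : Z → D) (f : Z → ℝ≥0∞) :
    ∑' z, f z = ∑' d, ∑' z : {z // p z = d}, f z := by
  rw [← (Equiv.sigmaFiberEquiv p).tsum_eq, ENNReal.tsum_sigma']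
  rfl

theorem tsum_fiber_eq {M : Type*} [AddCommMonoid M] [TopologicalSpace M]
    (fin_p : ∀ y, {z | p z = y}.Finite) (f : Z → M) (d : D) :
    HasSum (fun z : {z // p z = d} => f z) (∑ᶠ z ∈ {z | p z = d}, f z) := by
  rw [finsum_mem_eq_finite_toFinset_sum _ (fin_p d)]
  have h1 := Finset.hasSum (fin_p d).toFinset f
  let e : {z // p z = d} ≃ ((fin_p d).toFinset : Set Z) := Equiv.subtypeEquivRight fun z => by simp
  rw [← e.hasSum_iff] at h1
  exact h1

theorem hasSum_fiber (fin_p : ∀ y, {z | p z = y}.Finite)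
    (sum_p : ∀ y, ∑ᶠ z ∈ {z | p z = y}, w z = φ y) {g : D → ℂ}
    (hs : Summable fun z => w z * g (p z)) :
    HasSum (fun d => φ d * g d) (∑' z, w z * g (p z)) := by
  have h1 := hs.hasSum
  rw [← (Equiv.sigmaFiberEquiv p).hasSum_iff] at h1
  refine h1.sigma fun d => ?_
  have h2 := (tsum_fiber_eq fin_p w d).mul_right (g d)
  rw [sum_p] at h2
  have h3 : (fun c : {z // p z = d} =>
      ((fun z => w z * g (p z)) ∘ ⇑(Equiv.sigmaFiberEquiv p)) ⟨d, c⟩) = fun c => w c.1 * g d := by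
    funext c
    change w c.1 * g (p c.1) = _
    rw [c.2]
  rw [h3]
  exact h2

theorem tsum_fiber_enorm (fin_p : ∀ y, {z | p z = y}.Finite)
    (nc : ∀ y, ∑ᶠ z ∈ {z | p z = y}, ‖w z‖ = ‖φ y‖) (d : D) :
    ∑' z : {z // p z = d}, ‖w z‖ₑ = ‖φ d‖ₑ := by
  have h1 := tsum_fiber_eq fin_p (fun z => ‖w z‖) d
  rw [nc] at h1
  have h2 : ∑' z : {z // p z = d}, ENNReal.ofReal ‖w z‖ = ENNReal.ofReal ‖φ d‖ := by
    rw [← h1.tsum_eq, ENNReal.ofReal_tsum_of_nonneg (fun z => norm_nonneg _) h1.summable]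
  simpa only [ofReal_norm] using h2

theorem enorm_le_tsum_fiber (fin_p : ∀ y, {z | p z = y}.Finite)
    (sum_p : ∀ y, ∑ᶠ z ∈ {z | p z = y}, w z = φ y) (d : D) :
    ‖φ d‖ₑ ≤ ∑' z : {z // p z = d}, ‖w z‖ₑ := by
  have h1 := tsum_fiber_eq fin_p w d
  rw [sum_p] at h1
  rw [← h1.tsum_eq]
  exact enorm_tsum_le_tsum_enorm

variable {A : Type*} [MeasurableSpace A] {ν : Measure A} [SFinite ν] [MeasurableSpace Z]
  [DiscreteMeasurableSpace Z] [MeasurableSpace D] [DiscreteMeasurableSpace D] [Countable Z]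
  [Countable D]

theorem measurable_of_countable_snd {β : Type*} [MeasurableSpace β] {f : A × Z → β}
    (hf : ∀ z, Measurable fun a => f (a, z)) : Measurable f :=
  measurable_from_prod_countable_left fun z => hf z

/-- no cancellation: absolute integrals along the fibres -/
theorem lintegral_fib (fin_p : ∀ y, {z | p z = y}.Finite)
    (nc : ∀ y, ∑ᶠ z ∈ {z | p z = y}, ‖w z‖ = ‖φ y‖) {u : A × D → ℝ≥0} (hu : Measurable u)
    {H : A → ℂ} (hH : Measurable H) :
    ∫⁻ y : A × Z, (u (y.1, p y.2) : ℝ≥0∞) * ‖w y.2 * H y.1‖ₑ ∂(ν.prod Measure.count) =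
      ∫⁻ y : A × D, (u y : ℝ≥0∞) * ‖φ y.2 * H y.1‖ₑ ∂(ν.prod Measure.count) := by
  rw [lintegral_prod_symm', lintegral_prod_symm', lintegral_count, lintegral_count, tsum_fib p]
  · refine tsum_congr fun d => ?_
    have h1 : ∀ z : {z // p z = d}, ∫⁻ a, (u (a, p z.1) : ℝ≥0∞) * ‖w z.1 * H a‖ₑ ∂ν =
        ‖w z.1‖ₑ * ∫⁻ a, (u (a, d) : ℝ≥0∞) * ‖H a‖ₑ ∂ν := by
      intro z
      rw [← lintegral_const_mul]
      · refine lintegral_congr fun a => ?_
        rw [z.2, enorm_mul]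
        ring
      · exact (hu.comp (measurable_id.prodMk measurable_const)).coe_nnreal_ennreal.mul hH.enorm
    rw [tsum_congr h1, ENNReal.tsum_mul_right, tsum_fiber_enorm fin_p nc, ← lintegral_const_mul]
    · refine lintegral_congr fun a => ?_
      rw [enorm_mul]
      ring
    · exact (hu.comp (measurable_id.prodMk measurable_const)).coe_nnreal_ennreal.mul hH.enorm
  · exact hu.coe_nnreal_ennreal.mul
      (((Measurable.of_discrete (f := φ)).comp measurable_snd).mul (hH.comp measurable_fst)).enorm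
  · exact (hu.comp (measurable_fst.prodMk ((Measurable.of_discrete (f := p)).comp
      measurable_snd))).coe_nnreal_ennreal.mul
      (((Measurable.of_discrete (f := w)).comp measurable_snd).mul (hH.comp measurable_fst)).enorm

/-- absolute integrals along the fibres -/
theorem lintegral_fib_le (fin_p : ∀ y, {z | p z = y}.Finite)
    (sum_p : ∀ y, ∑ᶠ z ∈ {z | p z = y}, w z = φ y) {u : A × D → ℝ≥0} (hu : Measurable u)
    {H : A → ℂ} (hH : Measurable H) :
    ∫⁻ y : A × D, (u y : ℝ≥0∞) * ‖φ y.2 * H y.1‖ₑ ∂(ν.prod Measure.count) ≤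
    ∫⁻ y : A × Z, (u (y.1, p y.2) : ℝ≥0∞) * ‖w y.2 * H y.1‖ₑ ∂(ν.prod Measure.count) := by
  rw [lintegral_prod_symm', lintegral_prod_symm', lintegral_count, lintegral_count, tsum_fib p]
  · refine ENNReal.tsum_le_tsum fun d => ?_
    have h1 : ∀ z : {z // p z = d}, ∫⁻ a, (u (a, p z.1) : ℝ≥0∞) * ‖w z.1 * H a‖ₑ ∂ν =
        ‖w z.1‖ₑ * ∫⁻ a, (u (a, d) : ℝ≥0∞) * ‖H a‖ₑ ∂ν := by
      intro z
      rw [← lintegral_const_mul]
      · refine lintegral_congr fun a => ?_
        rw [z.2, enorm_mul]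
        ring
      · exact (hu.comp (measurable_id.prodMk measurable_const)).coe_nnreal_ennreal.mul hH.enorm
    rw [tsum_congr h1, ENNReal.tsum_mul_right]
    refine le_trans ?_ (mul_le_mul_left (enorm_le_tsum_fiber fin_p sum_p d) _)
    rw [← lintegral_const_mul]
    · refine le_of_eq (lintegral_congr fun a => ?_)
      rw [enorm_mul]
      ring
    · exact (hu.comp (measurable_id.prodMk measurable_const)).coe_nnreal_ennreal.mul hH.enorm
  · exact (hu.comp (measurable_fst.prodMk ((Measurable.of_discrete (f := p)).comp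
      measurable_snd))).coe_nnreal_ennreal.mul
      (((Measurable.of_discrete (f := w)).comp measurable_snd).mul (hH.comp measurable_fst)).enorm
  · exact hu.coe_nnreal_ennreal.mul
      (((Measurable.of_discrete (f := φ)).comp measurable_snd).mul (hH.comp measurable_fst)).enorm

/-- integrals along the fibres -/
theorem integral_fib (fin_p : ∀ y, {z | p z = y}.Finite)
    (sum_p : ∀ y, ∑ᶠ z ∈ {z | p z = y}, w z = φ y) {u : A × D → ℝ≥0} (hu : Measurable u)
    {H : A → ℂ} (hH : Measurable H)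
    (hint : ∫⁻ y : A × Z, (u (y.1, p y.2) : ℝ≥0∞) * ‖w y.2 * H y.1‖ₑ ∂(ν.prod Measure.count) ≠ ∞) :
    ∫ y : A × Z, u (y.1, p y.2) • (w y.2 * H y.1) ∂(ν.prod Measure.count) =
      ∫ y : A × D, u y • (φ y.2 * H y.1) ∂(ν.prod Measure.count) := by
  have i1 : Integrable (fun y : A × Z => u (y.1, p y.2) • (w y.2 * H y.1))
      (ν.prod Measure.count) := by
    refine ⟨((hu.comp (measurable_fst.prodMk ((Measurable.of_discrete (f := p)).comp
      measurable_snd))).smul (((Measurable.of_discrete (f := w)).comp measurable_snd).mul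
        (hH.comp measurable_fst))).aestronglyMeasurable, ?_⟩
    rw [HasFiniteIntegral]
    simp_rw [enorm_nnreal_smul]
    exact hint.lt_top
  have i2 : Integrable (fun y : A × D => u y • (φ y.2 * H y.1)) (ν.prod Measure.count) := by
    refine ⟨(hu.smul (((Measurable.of_discrete (f := φ)).comp measurable_snd).mul
        (hH.comp measurable_fst))).aestronglyMeasurable, ?_⟩
    rw [HasFiniteIntegral]
    simp_rw [enorm_nnreal_smul]
    exact lt_of_le_of_lt (lintegral_fib_le fin_p sum_p hu hH) hint.lt_top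
  rw [integral_prod_symm _ i1, integral_prod_symm _ i2, integral_countable i1.integral_prod_right,
    integral_countable i2.integral_prod_right]
  have hc : ∀ z : Z, (Measure.count : Measure Z).real {z} = 1 := by
    intro z; rw [Measure.real, Measure.count_singleton]; rfl
  have hc' : ∀ z : D, (Measure.count : Measure D).real {z} = 1 := by
    intro z; rw [Measure.real, Measure.count_singleton]; rfl
  simp_rw [hc, hc', one_smul]
  set J : D → ℂ := fun d => ∫ a, u (a, d) • H a ∂ν with hJ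
  have e1 : ∀ z, ∫ a, u (a, p z) • (w z * H a) ∂ν = w z * J (p z) := by
    intro z
    rw [hJ, ← integral_const_mul]
    refine integral_congr_ae (Filter.Eventually.of_forall fun a => ?_)
    simp only [NNReal.smul_def, Complex.real_smul]
    ring
  have e2 : ∀ d, ∫ a, u (a, d) • (φ d * H a) ∂ν = φ d * J d := by
    intro z
    rw [hJ, ← integral_const_mul]
    refine integral_congr_ae (Filter.Eventually.of_forall fun a => ?_)
    simp only [NNReal.smul_def, Complex.real_smul]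
    ring
  simp_rw [e1, e2]
  have hs : Summable fun z => w z * J (p z) := by
    have h3 : Integrable (fun z : Z => ∫ a, u (a, p z) • (w z * H a) ∂ν) Measure.count :=
      i1.integral_prod_right
    have h4 := h3.2
    rw [HasFiniteIntegral, lintegral_count] at h4
    simp_rw [e1] at h4
    have h5 := ENNReal.summable_toReal h4.ne
    refine Summable.of_norm ?_
    simpa using h5
  exact (hasSum_fiber fin_p sum_p hs).tsum_eq.symm

end Fib

section Main

/-- the archimedean part of the comparison -/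
structure PushData {A A' : Type*} [MeasurableSpace A] [MeasurableSpace A'] (ν : Measure A)
    (ν' : Measure A') (π : A → A') (H : A → ℂ) (H' : A' → ℂ) : Prop where
  qmp : Measure.QuasiMeasurePreserving π ν ν'
  mH : Measurable H
  mH' : Measurable H'
  lint : ∀ f : A' → ℝ≥0, Measurable f →
    ∫⁻ x, (f x : ℝ≥0∞) * ‖H' x‖ₑ ∂ν' ≤ ∫⁻ a, (f (π a) : ℝ≥0∞) * ‖H a‖ₑ ∂ν
  int : ∀ f : A' → ℝ≥0, Measurable f → ∫⁻ a, (f (π a) : ℝ≥0∞) * ‖H a‖ₑ ∂ν ≠ ∞ →
    ∫ a, f (π a) • H a ∂ν = ∫ x, f x • H' x ∂ν'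

theorem lintegral_pull {A : Type*} [MeasurableSpace A] {ν : Measure A} {g : A → ℝ≥0}
    (hg : Measurable g) {H : A → ℂ} (hH : Measurable H) (c : ℂ) :
    ∫⁻ a, (g a : ℝ≥0∞) * ‖c * H a‖ₑ ∂ν = ‖c‖ₑ * ∫⁻ a, (g a : ℝ≥0∞) * ‖H a‖ₑ ∂ν := by
  have m : Measurable fun a => (g a : ℝ≥0∞) * ‖H a‖ₑ := hg.coe_nnreal_ennreal.mul hH.enorm
  rw [← lintegral_const_mul _ m]
  refine lintegral_congr fun a => ?_
  rw [enorm_mul]
  ring

theorem ae_prod_count {A Z : Type*} [MeasurableSpace A] {ν : Measure A} [SFinite ν]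
    [MeasurableSpace Z] [DiscreteMeasurableSpace Z] [Countable Z] {P : A × Z → Prop}
    (h : ∀ z, ∀ᵐ a ∂ν, P (a, z)) : ∀ᵐ y ∂(ν.prod Measure.count), P y := by
  rw [ae_iff]
  have h1 : {y | ¬ P y} ⊆ ⋃ z : Z, {a | ¬ P (a, z)} ×ˢ {z} := by
    rintro ⟨a, z⟩ hy
    rw [Set.mem_iUnion]
    exact ⟨z, hy, rfl⟩
  refine measure_mono_null h1 (measure_iUnion_null fun z => ?_)
  rw [Measure.prod_prod, ae_iff.mp (h z), zero_mul]

theorem ae_of_ae_prod_count {A Z : Type*} [MeasurableSpace A] {ν : Measure A} [SFinite ν]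
    [MeasurableSpace Z] [DiscreteMeasurableSpace Z] [Countable Z] {P : A × Z → Prop}
    (h : ∀ᵐ y ∂(ν.prod Measure.count), P y) : ∀ᵐ a ∂ν, ∀ z, P (a, z) := by
  filter_upwards [Measure.ae_ae_of_ae_prod h] with a ha z
  by_contra hcon
  have h1 := ae_iff.mp ha
  have h2 : (Measure.count : Measure Z) {z} = 0 :=
    measure_mono_null (Set.singleton_subset_iff.mpr hcon) h1
  rw [Measure.count_singleton] at h2
  exact one_ne_zero h2

theorem measurePreserving_count_equiv {Z : Type*} [MeasurableSpace Z] [DiscreteMeasurableSpace Z]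
    (e : Z ≃ Z) : MeasurePreserving e (Measure.count : Measure Z) Measure.count := by
  refine ⟨Measurable.of_discrete, ?_⟩
  ext s hs
  rw [Measure.map_apply Measurable.of_discrete hs, Measure.count_apply hs,
    Measure.count_apply (Measurable.of_discrete hs), Set.encard_preimage_of_bijective e.bijective]

/-- a permutation of a discrete space -/
def discEquiv {Z : Type*} [MeasurableSpace Z] [DiscreteMeasurableSpace Z] (e : Z ≃ Z) : Z ≃ᵐ Z where
  toEquiv := e
  measurable_toFun := Measurable.of_discrete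
  measurable_invFun := Measurable.of_discrete

variable {S : Type*} [Group S] [Countable S] {A A' D D' Z : Type*} [MulAction S A] [MulAction S A']
  [MulAction S D] [MulAction S D'] [MeasurableSpace A] [MeasurableSpace A'] [MeasurableSpace D]
  [DiscreteMeasurableSpace D] [Countable D] [MeasurableSpace D'] [DiscreteMeasurableSpace D']
  [Countable D'] [MeasurableSpace Z] [DiscreteMeasurableSpace Z] [Countable Z]
  {ν : Measure A} {ν' : Measure A'} [SFinite ν] [SFinite ν'] [MeasurableConstSMul S A]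
  [SMulInvariantMeasure S A ν] {π : A → A'} {H : A → ℂ} {H' : A' → ℂ} {φ : D → ℂ} {φ' : D' → ℂ}
  {p : Z → D} {q : Z → D'} {e : S → Z ≃ Z} {w : Z → ℂ} {u : A × D → ℝ≥0} {u' : A' × D' → ℝ≥0}

/-- the push-forward, on the product with the correspondence -/
theorem push_lintegral (hP : PushData ν ν' π H H') (hu' : Measurable u') :
    ∫⁻ y : A' × Z, (u' (y.1, q y.2) : ℝ≥0∞) * ‖w y.2 * H' y.1‖ₑ ∂(ν'.prod Measure.count) ≤
    ∫⁻ y : A × Z, (u' (π y.1, q y.2) : ℝ≥0∞) * ‖w y.2 * H y.1‖ₑ ∂(ν.prod Measure.count) := by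
  have hf : ∀ z, Measurable fun x => u' (x, q z) := fun z =>
    hu'.comp (measurable_id.prodMk measurable_const)
  rw [lintegral_prod_symm', lintegral_prod_symm', lintegral_count, lintegral_count]
  · refine ENNReal.tsum_le_tsum fun z => ?_
    have h1 := hP.lint (fun x => u' (x, q z)) (hf z)
    have e1 : ∫⁻ x, (u' (x, q z) : ℝ≥0∞) * ‖w z * H' x‖ₑ ∂ν' =
        ‖w z‖ₑ * ∫⁻ x, (u' (x, q z) : ℝ≥0∞) * ‖H' x‖ₑ ∂ν' :=
      lintegral_pull (hf z) hP.mH' (w z)
    have e2 : ∫⁻ a, (u' (π a, q z) : ℝ≥0∞) * ‖w z * H a‖ₑ ∂ν =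
        ‖w z‖ₑ * ∫⁻ a, (u' (π a, q z) : ℝ≥0∞) * ‖H a‖ₑ ∂ν :=
      lintegral_pull ((hf z).comp hP.qmp.measurable) hP.mH (w z)
    rw [e1, e2]
    exact mul_le_mul_right h1 _
  · exact (hu'.comp ((hP.qmp.measurable.comp measurable_fst).prodMk
      ((Measurable.of_discrete (f := q)).comp measurable_snd))).coe_nnreal_ennreal.mul
      (((Measurable.of_discrete (f := w)).comp measurable_snd).mul
        (hP.mH.comp measurable_fst)).enorm
  · exact (hu'.comp (measurable_fst.prodMk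
      ((Measurable.of_discrete (f := q)).comp measurable_snd))).coe_nnreal_ennreal.mul
      (((Measurable.of_discrete (f := w)).comp measurable_snd).mul
        (hP.mH'.comp measurable_fst)).enorm

theorem push_integral (hP : PushData ν ν' π H H') (hu' : Measurable u')
    (hint : ∫⁻ y : A × Z, (u' (π y.1, q y.2) : ℝ≥0∞) * ‖w y.2 * H y.1‖ₑ ∂(ν.prod Measure.count)
      ≠ ∞) :
    ∫ y : A × Z, u' (π y.1, q y.2) • (w y.2 * H y.1) ∂(ν.prod Measure.count) =
      ∫ y : A' × Z, u' (y.1, q y.2) • (w y.2 * H' y.1) ∂(ν'.prod Measure.count) := by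
  have hf : ∀ z, Measurable fun x => u' (x, q z) := fun z =>
    hu'.comp (measurable_id.prodMk measurable_const)
  have i1 : Integrable (fun y : A × Z => u' (π y.1, q y.2) • (w y.2 * H y.1))
      (ν.prod Measure.count) := by
    refine ⟨((hu'.comp ((hP.qmp.measurable.comp measurable_fst).prodMk
      ((Measurable.of_discrete (f := q)).comp measurable_snd))).smul
      (((Measurable.of_discrete (f := w)).comp measurable_snd).mul
        (hP.mH.comp measurable_fst))).aestronglyMeasurable, ?_⟩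
    rw [HasFiniteIntegral]
    simp_rw [enorm_nnreal_smul]
    exact hint.lt_top
  have i2 : Integrable (fun y : A' × Z => u' (y.1, q y.2) • (w y.2 * H' y.1))
      (ν'.prod Measure.count) := by
    refine ⟨((hu'.comp (measurable_fst.prodMk
      ((Measurable.of_discrete (f := q)).comp measurable_snd))).smul
      (((Measurable.of_discrete (f := w)).comp measurable_snd).mul
        (hP.mH'.comp measurable_fst))).aestronglyMeasurable, ?_⟩
    rw [HasFiniteIntegral]
    simp_rw [enorm_nnreal_smul]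
    exact lt_of_le_of_lt (push_lintegral hP hu') hint.lt_top
  rw [integral_prod_symm _ i1, integral_prod_symm _ i2, integral_countable i1.integral_prod_right,
    integral_countable i2.integral_prod_right]
  refine tsum_congr fun z => ?_
  congr 1
  have e1 : ∫ a, u' (π a, q z) • (w z * H a) ∂ν = w z * ∫ a, u' (π a, q z) • H a ∂ν := by
    rw [← integral_const_mul]
    refine integral_congr_ae (Filter.Eventually.of_forall fun a => ?_)
    simp only [NNReal.smul_def, Complex.real_smul]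
    ring
  have e2 : ∫ a, u' (a, q z) • (w z * H' a) ∂ν' = w z * ∫ a, u' (a, q z) • H' a ∂ν' := by
    rw [← integral_const_mul]
    refine integral_congr_ae (Filter.Eventually.of_forall fun a => ?_)
    simp only [NNReal.smul_def, Complex.real_smul]
    ring
  rw [e1, e2]
  by_cases hw : w z = 0
  · rw [hw, zero_mul, zero_mul]
  congr 1
  refine hP.int (fun x => u' (x, q z)) (hf z) ?_
  intro htop
  apply hint
  rw [lintegral_prod_symm', lintegral_count]
  · refine ENNReal.tsum_eq_top_of_eq_top ⟨z, ?_⟩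
    have e2 : ∫⁻ a, (u' (π a, q z) : ℝ≥0∞) * ‖w z * H a‖ₑ ∂ν =
        ‖w z‖ₑ * ∫⁻ a, (u' (π a, q z) : ℝ≥0∞) * ‖H a‖ₑ ∂ν :=
      lintegral_pull ((hf z).comp hP.qmp.measurable) hP.mH (w z)
    rw [e2, htop]
    exact ENNReal.mul_top (by simpa using hw)
  · exact (hu'.comp ((hP.qmp.measurable.comp measurable_fst).prodMk
      ((Measurable.of_discrete (f := q)).comp measurable_snd))).coe_nnreal_ennreal.mul
      (((Measurable.of_discrete (f := w)).comp measurable_snd).mul
        (hP.mH.comp measurable_fst)).enorm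

/-- **Comparison of the integrals along a correspondence.** -/
theorem corr_integral (hP : PushData ν ν' π H H') (hπ : ∀ (s : S) a, π (s • a) = s • π a)
    (hH : ∀ (s : S) a, H (s • a) = H a) (hp : ∀ s z, p (e s z) = s • p z)
    (hq : ∀ s z, q (e s z) = s • q z) (hw : ∀ s z, w (e s z) = w z)
    (fin_p : ∀ y, {z | p z = y}.Finite) (fin_q : ∀ y, {z | q z = y}.Finite)
    (sum_p : ∀ y, ∑ᶠ z ∈ {z | p z = y}, w z = φ y) (sum_q : ∀ y, ∑ᶠ z ∈ {z | q z = y}, w z = φ' y)
    (nc : ∀ y, ∑ᶠ z ∈ {z | p z = y}, ‖w z‖ = ‖φ y‖)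
    (hu : IsWt S (ν.prod (Measure.count : Measure D)) u)
    (hu' : IsWt S (ν'.prod (Measure.count : Measure D')) u')
    (hint : ∫⁻ y, ‖φ y.2 * H y.1‖ₑ ∂(wtM (ν.prod (Measure.count : Measure D)) u) ≠ ∞) :
    ∫ y, φ y.2 * H y.1 ∂(wtM (ν.prod (Measure.count : Measure D)) u) =
      ∫ y, φ' y.2 * H' y.1 ∂(wtM (ν'.prod (Measure.count : Measure D')) u') := by
  set m : Measure (A × Z) := ν.prod Measure.count with hm
  let T : S → (A × Z) ≃ᵐ (A × Z) := fun s => (MeasurableEquiv.smul s).prodCongr (discEquiv (e s))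
  have hT1 : ∀ s a z, T s (a, z) = (s • a, e s z) := fun s a z => rfl
  have hT2 : ∀ s a z, (T s).symm (a, z) = (s⁻¹ • a, (e s).symm z) := fun s a z => rfl
  have hT : ∀ s, MeasurePreserving (T s) m m := fun s =>
    (measurePreserving_smul s ν).prod (measurePreserving_count_equiv (e s))
  have mφ : Measurable fun y : A × D => φ y.2 * H y.1 :=
    ((Measurable.of_discrete (f := φ)).comp measurable_snd).mul (hP.mH.comp measurable_fst)
  have e0 : ∫⁻ y : A × Z, (u (y.1, p y.2) : ℝ≥0∞) * ‖w y.2 * H y.1‖ₑ ∂m ≠ ∞ := by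
    rw [hm, lintegral_fib fin_p nc hu.meas hP.mH]
    rw [lintegral_wtM hu.meas mφ.enorm.aemeasurable] at hint
    exact hint
  have hUm : Measurable fun y : A × Z => u (y.1, p y.2) :=
    hu.meas.comp (measurable_fst.prodMk ((Measurable.of_discrete (f := p)).comp measurable_snd))
  have hUm' : Measurable fun y : A × Z => u' (π y.1, q y.2) :=
    hu'.meas.comp ((hP.qmp.measurable.comp measurable_fst).prodMk
      ((Measurable.of_discrete (f := q)).comp measurable_snd))
  have hpi : ∀ s z, p ((e s).symm z) = s⁻¹ • p z := by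
    intro s z
    rw [eq_inv_smul_iff, ← hp, Equiv.apply_symm_apply]
  have hU : ∀ᵐ y ∂m, ∑' s, (u (((T s).symm y).1, p ((T s).symm y).2) : ℝ≥0∞) = 1 := by
    refine ae_prod_count fun z => ?_
    have h1 : ∀ᵐ y ∂(ν.prod (Measure.count : Measure D)),
        ∑' s : S, (u (s⁻¹ • y) : ℝ≥0∞) = 1 := by
      filter_upwards [hu.sum_eq] with y hy
      rw [← hy]
      exact (Equiv.inv S).tsum_eq (fun g => (u (g • y) : ℝ≥0∞))
    filter_upwards [ae_of_ae_prod_count h1] with a ha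
    rw [← ha (p z)]
    refine tsum_congr fun s => ?_
    rw [hT2, hpi]
    rfl
  have hU' : ∀ᵐ y ∂m, ∑' s, (u' (π (T s y).1, q (T s y).2) : ℝ≥0∞) = 1 := by
    refine ae_prod_count fun z => ?_
    filter_upwards [hP.qmp.ae (ae_of_ae_prod_count hu'.sum_eq)] with a ha
    rw [← ha (q z)]
    refine tsum_congr fun s => ?_
    rw [hT1, hπ, hq]
    rfl
  have hΦm : Measurable fun y : A × Z => w y.2 * H y.1 :=
    ((Measurable.of_discrete (f := w)).comp measurable_snd).mul (hP.mH.comp measurable_fst)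
  have hΦ : ∀ s (y : A × Z), w (T s y).2 * H (T s y).1 = w y.2 * H y.1 := by
    rintro s ⟨a, z⟩
    rw [hT1, hw, hH]
  obtain ⟨-, h2⟩ := two_weights_lintegral hT hUm hUm' hU hU' hΦm hΦ
  have h3 := two_weights hT hUm hUm' hU hU' hΦm hΦ e0
  have e1 : ∫⁻ y : A × Z, (u' (π y.1, q y.2) : ℝ≥0∞) * ‖w y.2 * H y.1‖ₑ ∂m ≠ ∞ := by
    rw [h2]
    exact e0
  have e2 : ∫⁻ y : A' × Z, (u' (y.1, q y.2) : ℝ≥0∞) * ‖w y.2 * H' y.1‖ₑ
      ∂(ν'.prod Measure.count) ≠ ∞ := ne_top_of_le_ne_top e1 (push_lintegral hP hu'.meas)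
  rw [integral_wtM hu.meas, integral_wtM hu'.meas,
    ← integral_fib fin_p sum_p hu.meas hP.mH e0, ← integral_fib fin_q sum_q hu'.meas hP.mH' e2,
    ← push_integral hP hu'.meas e1]
  exact h3.symm

end Main

end Fermat.Agent.LT.T3
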