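import Fermat.Agent.LT.T3.RingE
import Fermat.Agent.LT.Mp.Inst

set_option autoImplicit false
set_option linter.unusedSectionVars false
set_option linter.unusedVariables false

/-!
# The elements contributing to the `k`-side are norms
-/

open NumberField IsDedekindDomain IsDedekindDomain.HeightOneSpectrum Matrix
open scoped MatrixGroups

namespace Fermat.Agent.LT.T3

open Tw Glob LT.Loc Mp

universe w u u'

section Abs

variable {k : Type u} {E : Type u'} [Field k] [NumberField k] [Field E] [NumberField E]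
  [Algebra k E]

theorem exists_of_ker {F : Type*} [Field F] {ι : Type*} {L : LocFam F ι}
    {U : L.Level} {φ : LocFam.GFun U} {γ : GL (Fin 2) F}
    {x : LocFam.D U} (hx : φ.ker x (γ • x) ≠ 0) (v : ι) :
    ∃ g : GL (Fin 2) (L.R v), (φ.f v).f (ProjGenLinGroup.mk
      (g⁻¹ * GeneralLinearGroup.map (L.loc v) γ * g)) ≠ 0 := by
  have h1 := LocFam.GFun.ker_ne_zero hx v
  obtain ⟨g, hg⟩ := QuotientGroup.mk_surjective (x v)
  obtain ⟨g, rfl⟩ := ProjGenLinGroup.mk_surjective g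
  refine ⟨g, ?_⟩
  rw [LocFam.smul_apply, ← hg] at h1
  have h2 : (φ v).ker ((ProjGenLinGroup.mk g : L.G v) : L.G v ⧸ U.U v)
    ((L.emb v γ * ProjGenLinGroup.mk g : L.G v) : L.G v ⧸ U.U v) ≠ 0 := h1
  rw [Hk.ker_mk, ← mul_assoc] at h2
  rw [map_mul, map_mul, map_inv]
  exact h2

/-- **Norms from supports**, for an abstract context -/
theorem exists_nm_of_ker (X : Ctx.{w} k E (HeightOneSpectrum (𝓞 k))) {σ : E ≃ₐ[k] E}
    (hσ : Cyc3 σ) {ζ : k} (hζ : IsPrimitiveRoot ζ 3)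
    (hs : ∀ v c, X.A.s v (X.i v c) = X.i v c)
    (hL : ∀ v, ∃ ℓ, LocRing σ v (X.LE.O v) (X.LE.loc v) (X.A.s v : X.LE.R v →+* X.LE.R v) ℓ)
    (G : X.Sym) {γ : GL (Fin 2) k} (hγ : Ell (γ : Matrix (Fin 2) (Fin 2) k))
    {d : LocFam.D X.Uk} (hd : (Ctx.PK G).ker d (γ • d) ≠ 0) :
    ∃ t : GL (Fin 2) E, nm σ t = bc (Tw.sc (GeneralLinearGroup.det γ) * γ) := by
  refine Tw.exists_norm hσ hζ hγ fun v => Or.inr ?_
  have hnt : Nontrivial (X.Lk.R v) := (X.isField v).nontrivial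
  obtain ⟨g, hg⟩ := exists_of_ker hd v
  rw [Ctx.PK_f] at hg
  have hdisc : (γ : Matrix (Fin 2) (Fin 2) k).trace ^ 2 -
      4 * (γ : Matrix (Fin 2) (Fin 2) k).det ≠ 0 := by
    intro h0
    rw [ell_iff] at hγ
    have h2 : (2 : k) ≠ 0 := two_ne_zero
    apply hγ ((γ : Matrix (Fin 2) (Fin 2) k).trace / 2)
    field_simp
    linear_combination -h0
  have hdv : ((GeneralLinearGroup.map (X.Lk.loc v) γ : GL (Fin 2) (X.Lk.R v)) :
      Matrix (Fin 2) (Fin 2) (X.Lk.R v)).trace ^ 2 - 4 * ((GeneralLinearGroup.map (X.Lk.loc v) γ :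
      GL (Fin 2) (X.Lk.R v)) : Matrix (Fin 2) (Fin 2) (X.Lk.R v)).det ≠ 0 := by
    have e1 : ((GeneralLinearGroup.map (X.Lk.loc v) γ : GL (Fin 2) (X.Lk.R v)) :
      Matrix (Fin 2) (Fin 2) (X.Lk.R v)) = (γ : Matrix (Fin 2) (Fin 2) k).map (X.Lk.loc v) := rfl
    have e2 : ((γ : Matrix (Fin 2) (Fin 2) k).map (X.Lk.loc v)).trace =
        X.Lk.loc v (γ : Matrix (Fin 2) (Fin 2) k).trace := by
      rw [Matrix.trace_fin_two, Matrix.trace_fin_two, map_add]; rfl
    have e3 : ((γ : Matrix (Fin 2) (Fin 2) k).map (X.Lk.loc v)).det =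
        X.Lk.loc v (γ : Matrix (Fin 2) (Fin 2) k).det := (RingHom.map_det (X.Lk.loc v) _).symm
    rw [e1, e2, e3, ← map_pow, ← map_ofNat (X.Lk.loc v), ← map_mul, ← map_sub]
    exact (map_ne_zero (X.Lk.loc v)).2 hdisc
  obtain ⟨x, c, h1, h2⟩ := (Ctx.isMatch G v).norm _ g hdv hg
  obtain ⟨ℓ, hℓ⟩ := hL v
  have e4 : GeneralLinearGroup.map (X.i v) (GeneralLinearGroup.map (X.Lk.loc v) γ) =
      GeneralLinearGroup.map (X.LE.loc v) (bc (E := E) γ) := by
    ext i j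
    exact X.i_loc v (γ i j)
  have e5 : GeneralLinearGroup.map (X.i v) (GeneralLinearGroup.scalar (Fin 2) c) =
      scR (Units.map (X.i v : X.Lk.R v →* X.LE.R v) c) := by
    apply Units.ext
    rw [coe_scR]
    ext i j
    change X.i v ((GeneralLinearGroup.scalar (Fin 2) c : GL (Fin 2) (X.Lk.R v)) i j) = _
    rw [GeneralLinearGroup.coe_scalar, Matrix.scalar_apply, Matrix.diagonal_apply,
      Matrix.smul_apply, Matrix.one_apply, smul_eq_mul]
    split_ifs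
    · rw [mul_one]; rfl
    · rw [mul_zero, map_zero]
  rw [e4] at h1
  rw [map_mul, e4, e5] at h2
  exact locNear_of_norm hℓ hσ hγ (z := Units.map (X.i v : X.Lk.R v →* X.LE.R v) c) (hs v c) h1 h2

end Abs

section Conc

variable {k E : Type u} [Field k] [NumberField k] [Field E] [NumberField E] [Algebra k E]
  {σ : E ≃ₐ[k] E} (h : Gal3 σ) (b : Bad σ)

/-- **Norms from supports**, for the concrete context -/
theorem bad_exists_nm {ζ : k} (hζ : IsPrimitiveRoot ζ 3) (G : (b.X h).Sym) {γ : GL (Fin 2) k}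
    (hγ : Ell (γ : Matrix (Fin 2) (Fin 2) k)) {d : LocFam.D (b.X h).Uk}
    (hd : (Ctx.PK G).ker d (γ • d) ≠ 0) :
    ∃ t : GL (Fin 2) E, nm σ t = bc (Tw.sc (GeneralLinearGroup.det γ) * γ) :=
  exists_nm_of_ker (b.X h) (cyc3_of_gal3 h) hζ (fun v c => sHom_str σ c)
    (fun v => exists_locRing h v) G hγ hd

end Conc

end Fermat.Agent.LT.T3
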