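import Fermat.Agent.LT.Tw.NormNear
import Fermat.Agent.LT.Glob.ActE

set_option autoImplicit false
set_option linter.unusedSectionVars false
set_option linter.unusedVariables false

/-!
# The local rings `∏_{w ∣ v} E_w` satisfy the hypotheses `LocRing`
-/

open NumberField IsDedekindDomain IsDedekindDomain.HeightOneSpectrum Matrix
open scoped Pointwise

namespace Fermat.Agent.LT.T3

open Tw Glob LT.Loc

variable {k E : Type*} [Field k] [Field E] [Algebra k E]

theorem cyc3_of_gal3 {σ : E ≃ₐ[k] E} (h : Gal3 σ) : Cyc3 σ where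
  cube := h.cube
  fix x hx := h.fixed x hx
  ne := by
    by_contra hcon
    push Not at hcon
    obtain ⟨n, x, y, h1, h2, h3⟩ := h.dual
    simp_rw [hcon] at h2
    rw [h1] at h2
    exact one_ne_zero h2

variable [NumberField k] [NumberField E]

/-- **the local rings satisfy `LocRing`** -/
theorem exists_locRing {σ : E ≃ₐ[k] E} (h : Gal3 σ) (v : HeightOneSpectrum (𝓞 k)) :
    ∃ ℓ : ℕ, LocRing σ v (OE E v) (locHom E v) (sHom v σ) ℓ := by
  classical
  set q := Ideal.absNorm v.asIdeal with hq
  have hq0 : q ≠ 0 := by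
    rw [hq, Ne, Ideal.absNorm_eq_zero_iff]
    exact v.ne_bot
  have hqv : v.valuation k (q : k) < 1 := by
    rw [← map_natCast (algebraMap (𝓞 k) k), ← mem_iff_valuation_lt_one]
    exact Ideal.absNorm_mem v.asIdeal
  have hqw : ∀ w : Fib E v, Valued.v (q : w.1.adicCompletion E) < 1 := by
    intro w
    rw [← map_natCast (algebraMap E (w.1.adicCompletion E)), valued_algebraMap,
      ← map_natCast (algebraMap k E), (above_fib w).2]
    exact pow_lt_one₀ zero_le hqv (above_fib w).1
  refine ⟨q, ⟨fun a => sHom_loc σ a, fun x => ?_, fun x hx => sHom_mem σ hx, fun N hN x => ?_,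
    fun x => (locE k E).denom v x, hq0, fun x hx => ?_, fun a ha => ?_⟩⟩
  · have hc : σ * σ * σ = 1 := AlgEquiv.ext fun b => h.cube b
    rw [sHom_comp, sHom_comp, hc, sHom_one]
  · obtain ⟨a, ha, -⟩ := (locE k E).dense {v} (Function.update 0 v x) N hN
    have := ha v (Finset.mem_singleton_self v)
    rw [Function.update_self] at this
    exact ⟨a, this⟩
  · have h1 : ∀ w : Fib E v, Valued.v (x w) < 1 := by
      intro w
      have h2 := (mem_NO_Oc (natCast_adicCompletion_ne_zero w.1 hq0)).1 (mem_NO_OE.1 hx w)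
      exact h2.trans_lt (hqw w)
    have h3 : ∀ w : Fib E v, Valued.v (1 + x w) = 1 := by
      intro w
      have := Valuation.map_add_eq_of_lt_right (Valued.v (R := w.1.adicCompletion E))
        (x := (x w)) (y := 1) (by rw [map_one]; exact h1 w)
      rw [add_comm, this, map_one]
    refine ⟨fun w => (1 + x w)⁻¹, fun w => ?_, funext fun w => ?_⟩
    · rw [mem_Oc, map_inv₀, h3, inv_one]
    · have h4 : (1 + x w) ≠ 0 := by
        intro h0
        have := h3 w
        rw [h0, map_zero] at this
        exact zero_ne_one this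
      change (1 + x w) * (1 + x w)⁻¹ = 1
      exact mul_inv_cancel₀ h4
  · obtain ⟨w⟩ := (inferInstance : Nonempty (Fib E v))
    have h0 : (27 * q : ℕ) ≠ 0 := mul_ne_zero (by norm_num) hq0
    have h1 := (mem_NO_Oc (natCast_adicCompletion_ne_zero w.1 h0)).1 (mem_NO_OE.1 ha w)
    rw [locHom_apply, valued_algebraMap, (above_fib w).2,
      ← map_natCast (algebraMap E (w.1.adicCompletion E)), valued_algebraMap,
      ← map_natCast (algebraMap k E), (above_fib w).2] at h1
    have h2 : v.valuation k a ≤ v.valuation k ((27 * q : ℕ) : k) :=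
      (pow_le_pow_iff_left₀ zero_le zero_le (above_fib w).1).1 h1
    have h27 : v.valuation k (27 : k) ≠ 0 := (Valuation.ne_zero_iff _).2 (by norm_num)
    calc v.valuation k a ≤ v.valuation k ((27 * q : ℕ) : k) := h2
      _ = v.valuation k 27 * v.valuation k (q : k) := by
          rw [Nat.cast_mul, map_mul]; norm_num
      _ < v.valuation k 27 * 1 := mul_lt_mul_of_pos_left hqv (zero_lt_iff.2 h27)
      _ = _ := mul_one _

end Fermat.Agent.LT.T3
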