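import Fermat.Agent.LT.FA.QInt

set_option autoImplicit false
set_option linter.unusedSectionVars false

/-!
# Matching of two geometric sides, class by class
-/

open scoped ENNReal NNReal
open MeasureTheory

namespace Fermat.Agent.LT.T3

open FA

section Rel

variable {G₁ S₁ G₂ S₂ : Type*} [Group G₁] [Group G₂] [MulAction G₁ S₁] [MulAction G₂ S₂]

/-- a correspondence between the classes of two group actions -/
structure ClassRel (G₁ G₂ : Type*) {S₁ S₂ : Type*} [Group G₁] [Group G₂] [MulAction G₁ S₁]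
    [MulAction G₂ S₂] (R : S₁ → S₂ → Prop) (A₁ : S₁ → Prop) (A₂ : S₂ → Prop) : Prop where
  ex₁ : ∀ X, A₁ X → ∃ (g : G₁) (γ : S₂), R (g • X) γ
  ex₂ : ∀ γ, A₂ γ → ∃ (h : G₂) (X : S₁), R X (h • γ)
  fwd : ∀ X X' γ γ', R X γ → R X' γ' → (∃ g : G₁, X' = g • X) → ∃ h : G₂, γ' = h • γ
  bwd : ∀ X X' γ γ', R X γ → R X' γ' → (∃ h : G₂, γ' = h • γ) → ∃ g : G₁, X' = g • X

variable {R : S₁ → S₂ → Prop} {A₁ : S₁ → Prop} {A₂ : S₂ → Prop}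

theorem exists_smul_of_mk {G S : Type*} [Group G] [MulAction G S] {a b : S}
    (h : (Quotient.mk'' a : MulAction.orbitRel.Quotient G S) = Quotient.mk'' b) :
    ∃ g : G, b = g • a := by
  have h1 : MulAction.orbitRel G S b a := Quotient.exact' h.symm
  rw [MulAction.orbitRel_apply] at h1
  obtain ⟨g, hg⟩ := h1
  exact ⟨g, hg.symm⟩

theorem mk_smul_eq {G S : Type*} [Group G] [MulAction G S] (g : G) (a : S) :
    (Quotient.mk'' (g • a) : MulAction.orbitRel.Quotient G S) = Quotient.mk'' a := by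
  apply Quotient.sound'
  change MulAction.orbitRel G S (g • a) a
  rw [MulAction.orbitRel_apply]
  exact ⟨g, rfl⟩

theorem ClassRel.sum_eq (h : ClassRel G₁ G₂ R A₁ A₂) {M : Type*} [AddCommMonoid M]
    [TopologicalSpace M] [T2Space M] {I₁ : S₁ → M} {I₂ : S₂ → M}
    (hI₁ : ∀ (g : G₁) X, I₁ (g • X) = I₁ X) (hI₂ : ∀ (g : G₂) γ, I₂ (g • γ) = I₂ γ)
    (hA₁ : ∀ X, I₁ X ≠ 0 → A₁ X) (hA₂ : ∀ γ, I₂ γ ≠ 0 → A₂ γ)
    (hR : ∀ X γ, R X γ → I₁ X = I₂ γ) {a b : M}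
    (ha : HasSum (fun ω : MulAction.orbitRel.Quotient G₁ S₁ => I₁ ω.out) a)
    (hb : HasSum (fun ω : MulAction.orbitRel.Quotient G₂ S₂ => I₂ ω.out) b) : a = b := by
  have hex : ∀ ω : Function.support (fun ω : MulAction.orbitRel.Quotient G₁ S₁ => I₁ ω.out),
      ∃ (g : G₁) (γ : S₂), R (g • ω.1.out) γ := fun ω => h.ex₁ _ (hA₁ _ ω.2)
  choose g γ hg using hex
  have key := hasSum_iff_hasSum_of_ne_zero_bij (a := a)
    (f := fun ω : MulAction.orbitRel.Quotient G₂ S₂ => I₂ ω.out)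
    (g := fun ω : MulAction.orbitRel.Quotient G₁ S₁ => I₁ ω.out)
    (fun ω => (Quotient.mk'' (γ ω) : MulAction.orbitRel.Quotient G₂ S₂)) ?_ ?_ ?_
  · exact (key.mpr ha).unique hb
  · intro ω ω' e
    obtain ⟨x, hx⟩ := h.bwd _ _ _ _ (hg ω) (hg ω') (exists_smul_of_mk e)
    apply Subtype.ext
    have h1 : (Quotient.mk'' ω.1.out : MulAction.orbitRel.Quotient G₁ S₁) = ω.1 :=
      Quotient.out_eq' _
    have h2 : (Quotient.mk'' ω'.1.out : MulAction.orbitRel.Quotient G₁ S₁) = ω'.1 :=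
      Quotient.out_eq' _
    rw [← h1, ← h2, ← mk_smul_eq (g ω) ω.1.out, ← mk_smul_eq (g ω') ω'.1.out, hx, mk_smul_eq x]
  · intro ω₂ hω₂
    obtain ⟨x, X, hX⟩ := h.ex₂ _ (hA₂ _ hω₂)
    have e1 : I₁ (Quotient.mk'' X : MulAction.orbitRel.Quotient G₁ S₁).out = I₁ X := by
      obtain ⟨y, hy⟩ := exists_smul_of_mk (G := G₁)
        (Quotient.out_eq' (Quotient.mk'' X : MulAction.orbitRel.Quotient G₁ S₁)).symm
      rw [hy, hI₁]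
    have e2 : I₁ (Quotient.mk'' X : MulAction.orbitRel.Quotient G₁ S₁).out ≠ 0 := by
      rw [e1, hR _ _ hX, hI₂]
      exact hω₂
    refine ⟨⟨Quotient.mk'' X, e2⟩, ?_⟩
    obtain ⟨y, hy⟩ := exists_smul_of_mk (G := G₁)
        (Quotient.out_eq' (Quotient.mk'' X : MulAction.orbitRel.Quotient G₁ S₁)).symm
    have h3 := hg ⟨Quotient.mk'' X, e2⟩
    obtain ⟨z, hz⟩ := h.fwd _ _ _ _ hX h3 ⟨g ⟨Quotient.mk'' X, e2⟩ * y, by
      rw [mul_smul]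
      exact congrArg _ hy⟩
    change (Quotient.mk'' (γ ⟨Quotient.mk'' X, e2⟩) : MulAction.orbitRel.Quotient G₂ S₂) = ω₂
    rw [hz, mk_smul_eq, mk_smul_eq]
    exact Quotient.out_eq' _
  · intro ω
    have h1 := hR _ _ (hg ω)
    rw [hI₁] at h1
    change I₂ (Quotient.mk'' (γ ω) : MulAction.orbitRel.Quotient G₂ S₂).out = _
    obtain ⟨y, hy⟩ := exists_smul_of_mk (G := G₂)
        (Quotient.out_eq' (Quotient.mk'' (γ ω) : MulAction.orbitRel.Quotient G₂ S₂)).symm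
    rw [hy, hI₂, ← h1]

end Rel

section Geo

variable {G₁ S₁ Y₁ G₂ S₂ Y₂ E : Type*} [Group G₁] [Group G₂] [MulAction G₁ S₁] [MulAction G₂ S₂]
  [MulAction G₁ Y₁] [MulAction G₂ Y₂] [MeasurableSpace Y₁] [MeasurableSpace Y₂]
  [MeasurableConstSMul G₁ Y₁] [MeasurableConstSMul G₂ Y₂] {μ₁ : Measure Y₁} {μ₂ : Measure Y₂}
  [SMulInvariantMeasure G₁ Y₁ μ₁] [SMulInvariantMeasure G₂ Y₂ μ₂] [Countable G₁] [Countable G₂]
  [Countable S₁] [Countable S₂] {w₁ : Y₁ → ℝ≥0} {w₂ : Y₂ → ℝ≥0}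
  [NormedAddCommGroup E] [NormedSpace ℝ E] [CompleteSpace E]
  {R : S₁ → S₂ → Prop} {A₁ : S₁ → Prop} {A₂ : S₂ → Prop}

theorem qint_eq_zero {G Y : Type*} [Group G] [MulAction G Y] [MeasurableSpace Y] (μ : Measure Y)
    {F : Y → E} (hF : ∀ y, F y = 0) : qint G μ F = 0 := by
  rw [qint]
  split_ifs with h
  · simp [hF]
  · rfl

/-- **matching of the geometric sides** -/
theorem geo_match (h : ClassRel G₁ G₂ R A₁ A₂) (hw₁ : IsWt G₁ μ₁ w₁) (hw₂ : IsWt G₂ μ₂ w₂)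
    {F₁ : S₁ → Y₁ → E} {F₂ : S₂ → Y₂ → E}
    (hF₁ : ∀ X, AEStronglyMeasurable (F₁ X) μ₁) (hF₂ : ∀ X, AEStronglyMeasurable (F₂ X) μ₂)
    (hi₁ : ∀ (g : G₁) (X : S₁), ∀ᵐ y ∂μ₁, F₁ (g • X) (g • y) = F₁ X y)
    (hi₂ : ∀ (g : G₂) (X : S₂), ∀ᵐ y ∂μ₂, F₂ (g • X) (g • y) = F₂ X y)
    (hfin₁ : ∑' X : S₁, ∫⁻ y, ‖F₁ X y‖ₑ ∂(wtM μ₁ w₁) ≠ ∞)
    (hfin₂ : ∑' X : S₂, ∫⁻ y, ‖F₂ X y‖ₑ ∂(wtM μ₂ w₂) ≠ ∞)
    (hA₁ : ∀ X, (∃ y, F₁ X y ≠ 0) → A₁ X) (hA₂ : ∀ X, (∃ y, F₂ X y ≠ 0) → A₂ X)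
    (hR : ∀ X γ, R X γ → qint (MulAction.stabilizer G₁ X) μ₁ (F₁ X) =
      qint (MulAction.stabilizer G₂ γ) μ₂ (F₂ γ)) :
    ∫ y, ∑' X : S₁, F₁ X y ∂(wtM μ₁ w₁) = ∫ y, ∑' X : S₂, F₂ X y ∂(wtM μ₂ w₂) := by
  have h1 := hw₁.integral_classes_qint hF₁ hi₁ hfin₁
  have h2 := hw₂.integral_classes_qint hF₂ hi₂ hfin₂
  refine h.sum_eq (I₁ := fun X => qint (MulAction.stabilizer G₁ X) μ₁ (F₁ X))
    (I₂ := fun X => qint (MulAction.stabilizer G₂ X) μ₂ (F₂ X))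
    (fun g X => hw₁.qint_smul hF₁ hi₁ g X) (fun g X => hw₂.qint_smul hF₂ hi₂ g X)
    (fun X hX => hA₁ X ?_) (fun X hX => hA₂ X ?_) hR h1 h2
  · by_contra hcon
    push Not at hcon
    exact hX (qint_eq_zero μ₁ hcon)
  · by_contra hcon
    push Not at hcon
    exact hX (qint_eq_zero μ₂ hcon)

/-- the class terms are absolutely convergent -/
theorem integrable_class (hw₁ : IsWt G₁ μ₁ w₁) {F₁ : S₁ → Y₁ → E}
    (hF₁ : ∀ X, AEStronglyMeasurable (F₁ X) μ₁)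
    (hi₁ : ∀ (g : G₁) (X : S₁), ∀ᵐ y ∂μ₁, F₁ (g • X) (g • y) = F₁ X y)
    (hfin₁ : ∑' X : S₁, ∫⁻ y, ‖F₁ X y‖ₑ ∂(wtM μ₁ w₁) ≠ ∞) (X : S₁) :
    ∫⁻ y, ‖F₁ X y‖ₑ ∂(wtM μ₁ (wtSub (MulAction.stabilizer G₁ X) w₁)) ≠ ∞ := by
  have hi' : ∀ (g : G₁) (X : S₁), ∀ᵐ y ∂μ₁, ‖F₁ (g • X) (g • y)‖ₑ = ‖F₁ X y‖ₑ := by
    intro g X
    filter_upwards [hi₁ g X] with y hy
    rw [hy]
  have h2 : ∀ q : G₁ ⧸ MulAction.stabilizer G₁ X,
      AEMeasurable (fun y => (w₁ (q.out • y) : ℝ≥0∞) * ‖F₁ X y‖ₑ) μ₁ := fun q =>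
    (aemeasurable_smul hw₁.meas.coe_nnreal_ennreal.aemeasurable q.out).mul (hF₁ _).enorm
  have e0 : ∫⁻ y, ‖F₁ X y‖ₑ ∂(wtM μ₁ (wtSub (MulAction.stabilizer G₁ X) w₁)) =
      ∑' q : G₁ ⧸ MulAction.stabilizer G₁ X, ∫⁻ y, ‖F₁ (q.out • X) y‖ₑ ∂(wtM μ₁ w₁) := by
    simp_rw [lintegral_move (F := fun X y => ‖F₁ X y‖ₑ) (fun X => (hF₁ X).enorm) hw₁.meas hi']
    rw [← lintegral_tsum h2, lintegral_wtM (measurable_wtSub hw₁.meas _) (hF₁ _).enorm]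
    refine lintegral_congr_ae ?_
    filter_upwards [hw₁.coe_wtSub (MulAction.stabilizer G₁ X)] with y hy
    rw [ENNReal.tsum_mul_right, hy]
  rw [e0]
  have hinj : Function.Injective
      (fun q : G₁ ⧸ MulAction.stabilizer G₁ X => q.out • X) := by
    intro q q' e
    have e' : q.out • X = q'.out • X := e
    rw [← QuotientGroup.out_eq' q, ← QuotientGroup.out_eq' q', QuotientGroup.eq,
      MulAction.mem_stabilizer_iff, mul_smul, ← e', inv_smul_smul]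
  exact ne_top_of_le_ne_top hfin₁
    (ENNReal.tsum_comp_le_tsum_of_injective hinj
      (fun Z => ∫⁻ y, ‖F₁ Z y‖ₑ ∂(wtM μ₁ w₁)))

end Geo

end Fermat.Agent.LT.T3
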